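/-
GATE-E (S59, pre-work) / E2 residue, node GE2-AUGQUOT (helper22).

**`R_Q / 𝔞_Q ≅ R_∅` by universality**, in the frozen vocabulary of `DeformationRingData`.

* `inertiaIdeal ρ Q` : the ideal of `A` generated by the "entries of `ρ(s) − 1`", `s` in an inertia
  group at a prime of `Q` (basis-free: all `f (ρ s v − v)`, `f : V →ₗ A`).
  `isUnramifiedAt_of_le_ker` : killing it makes `ρ` unramified at `Q`;
  `inertiaIdeal_le_ker` : it dies in every base change which is unramified at `Q`;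
  `inertiaIdeal_le_maximalIdeal` : it is a proper ideal if `ρ̄` is unramified at `Q`;
  `sub_one_mem_inertiaIdeal` : `x − 1 ∈ 𝔞_Q` for every inertia eigenvalue `x` on a basis vector
  (the Taylor–Wiles characters `χ_{j,i}(s)` of `GB/E2/TWChars`).
* `exists_augQuot` : ABSTRACT form.  `D₀`, `DQ` two deformation ring data for the same `ρ̄`,
  `κ : DQ.R ↠ R'` with `ρ_Q ⊗ R'` of type `𝒟₀` (and `𝒟Q`), `ρ_∅` of type `𝒟Q`, and every classifying
  map `DQ.R → D₀.R` of `ρ_∅` kills `ker κ`.  Then the classifying map `π : DQ.R → D₀.R` of `ρ_∅` is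
  SURJECTIVE with `ker π = ker κ`, and `R' ≃ₐ[𝒪] D₀.R`.
* `exists_augQuot_inertia` : the instance `ker κ = 𝔞_Q = inertiaIdeal DQ.ρ Q`,
  `𝒟₀ = 𝒟Q ∧ unramified at Q`.
-/
import Mathlib
import Fermat.Agent.GP.Tan.UnivInj
import Fermat.Agent.GP.Top.S56OfGates
import Fermat.Agent.S53_helper15.LimitRing
import Fermat.Agent.S53_helper35.DefCond2

set_option autoImplicit false
set_option linter.unusedSectionVars false
set_option linter.style.haveILetI false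

noncomputable section

namespace Fermat.Agent.GE2.AugQuot

open IsLocalRing TensorProduct Function

/-- `ℚ̄`. -/
local notation "Qb" => AlgebraicClosure ℚ
/-- `G_ℚ`. -/
local notation "GQ" => (AlgebraicClosure ℚ ≃ₐ[ℚ] AlgebraicClosure ℚ)

/-! ### the inertia ideal -/

section Inertia

variable {A : Type} [CommRing A] [IsLocalRing A]

/-- the generators of the inertia ideal: the "entries" of `ρ(s) − 1`, `s` in an inertia group at
a prime of `Q`. -/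
def inertiaGens (ρ : GaloisRepAdic A) (Q : Finset ℕ) : Set A :=
  {a | ∃ q ∈ Q, ∃ P : ValuationSubring Qb, P.LiesOverPrime q ∧ ∃ s ∈ P.inertiaSubgroupIn ℚ,
    ∃ (v : ρ.V) (f : ρ.V →ₗ[A] A), a = f (ρ.ρ s v - v)}

/-- **the inertia ideal `𝔞_Q`** of a representation: the smallest ideal modulo which `ρ` is
unramified at the primes of `Q`. -/
def inertiaIdeal (ρ : GaloisRepAdic A) (Q : Finset ℕ) : Ideal A :=
  Ideal.span (inertiaGens ρ Q)

theorem apply_sub_mem_inertiaIdeal (ρ : GaloisRepAdic A) {Q : Finset ℕ} {q : ℕ} (hq : q ∈ Q)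
    {P : ValuationSubring Qb} (hP : P.LiesOverPrime q) {s : GQ}
    (hs : s ∈ P.inertiaSubgroupIn ℚ) (v : ρ.V) (f : ρ.V →ₗ[A] A) :
    f (ρ.ρ s v - v) ∈ inertiaIdeal ρ Q :=
  Ideal.subset_span ⟨q, hq, P, hP, s, hs, v, f, rfl⟩

/-- **inertia eigenvalues are `≡ 1` modulo `𝔞_Q`** (the Taylor–Wiles characters). -/
theorem sub_one_mem_inertiaIdeal (ρ : GaloisRepAdic A) {Q : Finset ℕ} {q : ℕ} (hq : q ∈ Q)
    {P : ValuationSubring Qb} (hP : P.LiesOverPrime q) {s : GQ}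
    (hs : s ∈ P.inertiaSubgroupIn ℚ) {ι : Type*} (B : Module.Basis ι A ρ.V) (i : ι) (x : A)
    (hx : ρ.ρ s (B i) = x • B i) : x - 1 ∈ inertiaIdeal ρ Q := by
  have h := apply_sub_mem_inertiaIdeal ρ hq hP hs (B i) (B.coord i)
  rw [hx, map_sub, map_smul, Module.Basis.coord_apply, Module.Basis.repr_self,
    Finsupp.single_eq_same, smul_eq_mul, mul_one] at h
  exact h

/-- a linear map whose base change to `B` is the identity has "entries" `≡ δ` in `B`. -/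
theorem algebraMap_apply_sub_eq_zero {B : Type*} [CommRing B] [Algebra A B] {V : Type*}
    [AddCommGroup V] [Module A V] (T : V →ₗ[A] V) (hT : T.baseChange B = 1) (f : V →ₗ[A] A)
    (v : V) : algebraMap A B (f (T v - v)) = 0 := by
  have h1 : (1 : B) ⊗ₜ[A] (T v - v) = 0 := by
    rw [TensorProduct.tmul_sub, ← LinearMap.baseChange_tmul, hT, Module.End.one_apply, sub_self]
  have h2 : (f.baseChange B) ((1 : B) ⊗ₜ[A] (T v - v)) = 0 := by rw [h1, map_zero]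
  rw [LinearMap.baseChange_tmul] at h2
  have h3 := congrArg (TensorProduct.rid A B) h2
  rw [TensorProduct.rid_tmul, map_zero, Algebra.smul_def, mul_one] at h3
  exact h3

/-- `x ∈ I • ⊤` from its coordinates. -/
theorem tmul_eq_zero_of_coord_mem {B : Type*} [CommRing B] [Algebra A B] {V : Type*}
    [AddCommGroup V] [Module A V] [Module.Free A V] [Module.Finite A V] (I : Ideal A)
    (hI : ∀ a ∈ I, algebraMap A B a = 0) (w : V) (hw : ∀ f : V →ₗ[A] A, f w ∈ I) (b : B) :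
    b ⊗ₜ[A] w = 0 := by
  classical
  set bs := Module.Free.chooseBasis A V
  rw [← bs.sum_repr w, TensorProduct.tmul_sum]
  refine Finset.sum_eq_zero fun i _ => ?_
  have hc : bs.repr w i ∈ I := hw (bs.coord i)
  rw [TensorProduct.tmul_smul, TensorProduct.smul_tmul', Algebra.smul_def, hI _ hc, zero_mul,
    TensorProduct.zero_tmul]

/-- **modulo `𝔞_Q` the representation is unramified at `Q`.** -/
theorem isUnramifiedAt_of_le_ker (ρ : GaloisRepAdic A) (Q : Finset ℕ) {B : Type} [CommRing B]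
    [IsLocalRing B] (φ : A →+* B) (hφ : IsLocalHom φ)
    (h : inertiaIdeal ρ Q ≤ RingHom.ker φ) {q : ℕ} (hq : q ∈ Q) :
    (ρ.baseChangeAlong φ hφ).IsUnramifiedAt q := by
  intro P hP s hs
  letI : Algebra A B := φ.toAlgebra
  show (ρ.ρ s).baseChange B = 1
  refine LinearMap.ext fun x => ?_
  rw [Module.End.one_apply]
  induction x using TensorProduct.induction_on with
  | zero => rw [map_zero]
  | tmul b v =>
    rw [LinearMap.baseChange_tmul, ← sub_eq_zero, ← TensorProduct.tmul_sub]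
    refine tmul_eq_zero_of_coord_mem (inertiaIdeal ρ Q) (fun a ha => ?_) _
      (fun f => apply_sub_mem_inertiaIdeal ρ hq hP hs v f) b
    exact h ha
  | add x y hx hy => rw [map_add, hx, hy]

/-- **`𝔞_Q` dies in every base change which is unramified at `Q`.** -/
theorem inertiaIdeal_le_ker (ρ : GaloisRepAdic A) (Q : Finset ℕ) {B : Type} [CommRing B]
    [IsLocalRing B] (φ : A →+* B) (hφ : IsLocalHom φ) (ρ' : GaloisRepAdic B)
    (he : (ρ.baseChangeAlong φ hφ).IsEquiv ρ') (hunr : ∀ q ∈ Q, ρ'.IsUnramifiedAt q) :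
    inertiaIdeal ρ Q ≤ RingHom.ker φ := by
  obtain ⟨e⟩ := he
  refine Ideal.span_le.mpr ?_
  rintro a ⟨q, hq, P, hP, s, hs, v, f, rfl⟩
  letI : Algebra A B := φ.toAlgebra
  have h1 : (ρ.baseChangeAlong φ hφ).ρ s = 1 := by
    refine LinearMap.ext fun x => ?_
    apply e.toLinearEquiv.injective
    rw [e.map_apply, hunr q hq P hP s hs, Module.End.one_apply, Module.End.one_apply]
  have h2 : (ρ.ρ s).baseChange B = 1 := h1
  exact algebraMap_apply_sub_eq_zero (ρ.ρ s) h2 f v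

/-- **`𝔞_Q` is a proper ideal when the residual representation is unramified at `Q`.** -/
theorem inertiaIdeal_le_maximalIdeal (ρ : GaloisRepAdic A) (Q : Finset ℕ)
    (hunr : ∀ q ∈ Q, ρ.residual.IsUnramifiedAt q) : inertiaIdeal ρ Q ≤ maximalIdeal A := by
  refine Ideal.span_le.mpr ?_
  rintro a ⟨q, hq, P, hP, s, hs, v, f, rfl⟩
  have h2 : (ρ.ρ s).baseChange (ResidueField A) = 1 := hunr q hq P hP s hs
  have h3 := algebraMap_apply_sub_eq_zero (ρ.ρ s) h2 f v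
  rw [ResidueField.algebraMap_eq] at h3
  exact (residue_eq_zero_iff _).mp h3

theorem inertiaIdeal_ne_top (ρ : GaloisRepAdic A) (Q : Finset ℕ)
    (hunr : ∀ q ∈ Q, ρ.residual.IsUnramifiedAt q) : inertiaIdeal ρ Q ≠ ⊤ := fun h =>
  (maximalIdeal.isMaximal A).ne_top (top_le_iff.mp (h ▸ inertiaIdeal_le_maximalIdeal ρ Q hunr))

end Inertia

/-! ### base change: identity, equality of maps, surjective base change of a condition -/

section BaseChange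

open Fermat.Agent.S53_helper35 Fermat.Agent.GP.Top

variable {A : Type} [CommRing A] [IsLocalRing A] {B : Type} [CommRing B] [IsLocalRing B]

/-- base change along the identity. -/
theorem baseChangeAlong_id_isEquiv (ρ : GaloisRepAdic A) (h : IsLocalHom (RingHom.id A)) :
    (ρ.baseChangeAlong (RingHom.id A) h).IsEquiv ρ := by
  set b := stdBasis ρ
  obtain ⟨e1⟩ := baseChangeAlong_isEquiv_ofMat (RingHom.id A) h ρ b
  have hm : mapMat (RingHom.id A) (toMat ρ b) = toMat ρ b := by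
    refine MonoidHom.ext fun σ => ?_
    rw [mapMat_apply]
    ext i j
    rfl
  obtain ⟨e2⟩ := isEquiv_ofMat_of_eq (matCont_mapMat (RingHom.id A) h (matCont_toMat ρ b))
    (matCont_toMat ρ b) hm
  exact ⟨(e1.trans e2).trans (equivOfMatToMat ρ b).symm⟩

/-- equal maps give equivalent base changes. -/
theorem baseChangeAlong_isEquiv_of_eq (ρ : GaloisRepAdic A) {φ φ' : A →+* B} (hφ : IsLocalHom φ)
    (hφ' : IsLocalHom φ') (h : φ = φ') :
    (ρ.baseChangeAlong φ hφ).IsEquiv (ρ.baseChangeAlong φ' hφ') := by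
  subst h
  exact ⟨GaloisRepAdic.Equiv.refl _⟩

variable {𝒪 : Type} [CommRing 𝒪] [IsLocalRing 𝒪]
  {𝒟 : ∀ ⦃A : Type⦄ [CommRing A] [IsLocalRing A] [Algebra 𝒪 A], GaloisRepAdic A → Prop}

/-- **a deformation condition is stable under SURJECTIVE base change** of complete noetherian
local `𝒪`-algebras. -/
theorem of_surjective_baseChange (h𝒟 : GaloisRep.IsDeformationCondition 𝒪 𝒟)
    [Algebra 𝒪 A] [Algebra 𝒪 B] [IsNoetherianRing A] [IsAdicComplete (maximalIdeal A) A]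
    [IsNoetherianRing B] [IsAdicComplete (maximalIdeal B) B]
    (hlocA : IsLocalHom (algebraMap 𝒪 A))
    (hresA : Surjective (IsLocalRing.residue A ∘ algebraMap 𝒪 A))
    (hlocB : IsLocalHom (algebraMap 𝒪 B))
    (hresB : Surjective (IsLocalRing.residue B ∘ algebraMap 𝒪 B))
    (κ : A →ₐ[𝒪] B) (hκ : IsLocalHom (κ : A →+* B)) (hκs : Surjective κ)
    (ρ : GaloisRepAdic A) (hρ : 𝒟 ρ) : 𝒟 (ρ.baseChangeAlong (κ : A →+* B) hκ) := by
  refine (h𝒟.iff_forall_surjective hlocB hresB _).mpr ?_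
  intro C _ _ _ hC q hq hqs
  have hloc : IsLocalHom ((q.comp κ : A →ₐ[𝒪] C) : A →+* C) :=
    isLocalHom_comp' (κ : A →+* B) hκ (q : B →+* C) hq
  have h1 : 𝒟 (ρ.baseChangeAlong ((q.comp κ : A →ₐ[𝒪] C) : A →+* C) hloc) :=
    (h𝒟.iff_forall_surjective hlocA hresA ρ).mp hρ hC (q.comp κ) hloc (hqs.comp hκs)
  obtain ⟨e⟩ := baseChangeAlong_comp_isEquiv ρ (κ : A →+* B) hκ (q : B →+* C) hq
  exact h𝒟.of_isEquiv hC ⟨e.symm⟩ h1

end BaseChange

/-! ### the augmentation quotient, abstract form -/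

section Aug

open Fermat.Agent.S53_helper35 Fermat.Agent.GP.Top Fermat.Agent.GP.Tan.UnivInj

variable {𝒪 : Type} [CommRing 𝒪] [IsDomain 𝒪] [IsDiscreteValuationRing 𝒪]
  [IsAdicComplete (maximalIdeal 𝒪) 𝒪]
  {ρbar : ResidualGaloisRep (ResidueField 𝒪)}
  {𝒟₀ 𝒟Q : ∀ ⦃A : Type⦄ [CommRing A] [IsLocalRing A] [Algebra 𝒪 A], GaloisRepAdic A → Prop}
  (D₀ : GaloisRep.DeformationRingData 𝒪 ρbar 𝒟₀) (DQ : GaloisRep.DeformationRingData 𝒪 ρbar 𝒟Q)

/-- **`R_Q / ker κ ≅ R_∅` by universality** (abstract form). -/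
theorem exists_augQuot {R' : Type} [CommRing R'] [IsLocalRing R'] [IsNoetherianRing R']
    [IsAdicComplete (maximalIdeal R') R'] [Algebra 𝒪 R'] [IsLocalHom (algebraMap 𝒪 R')]
    (hR' : Surjective (IsLocalRing.residue R' ∘ algebraMap 𝒪 R'))
    (κ : DQ.R →ₐ[𝒪] R') (hκ : IsLocalHom (κ : DQ.R →+* R')) (hκs : Surjective κ)
    (h0Q : 𝒟Q D₀.ρ)
    (hκ0 : 𝒟₀ (DQ.ρ.baseChangeAlong (κ : DQ.R →+* R') hκ))
    (hκQ : 𝒟Q (DQ.ρ.baseChangeAlong (κ : DQ.R →+* R') hκ))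
    (hker : ∀ (φ : DQ.R →ₐ[𝒪] D₀.R) (hφ : IsLocalHom (φ : DQ.R →+* D₀.R)),
      (DQ.ρ.baseChangeAlong (φ : DQ.R →+* D₀.R) hφ).IsEquiv D₀.ρ →
        RingHom.ker (κ : DQ.R →+* R') ≤ RingHom.ker (φ : DQ.R →+* D₀.R)) :
    ∃ (π : DQ.R →ₐ[𝒪] D₀.R) (hπ : IsLocalHom (π : DQ.R →+* D₀.R)),
      Surjective π ∧
      RingHom.ker (π : DQ.R →+* D₀.R) = RingHom.ker (κ : DQ.R →+* R') ∧
      (DQ.ρ.baseChangeAlong (π : DQ.R →+* D₀.R) hπ).IsEquiv D₀.ρ ∧
      ∃ ψ : D₀.R ≃ₐ[𝒪] R', ∀ x, ψ (π x) = κ x := by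
  -- the classifying map of `ρ_∅`
  obtain ⟨π, ⟨hπ, heπ⟩, -⟩ :=
    DQ.universal D₀.R D₀.residue_surjective D₀.ρ h0Q D₀.residual_isEquiv
  -- the classifying map of `ρ_Q ⊗ R'`
  obtain ⟨ψ, ⟨hψ, heψ⟩, -⟩ := D₀.universal R' hR' (DQ.ρ.baseChangeAlong (κ : DQ.R →+* R') hκ) hκ0
    (residual_baseChangeAlong_univ DQ κ hκ)
  -- `ψ ∘ π = κ`
  have hcomp : ψ.comp π = κ := by
    have hloc : IsLocalHom ((ψ.comp π : DQ.R →ₐ[𝒪] R') : DQ.R →+* R') :=
      isLocalHom_comp' (π : DQ.R →+* D₀.R) hπ (ψ : D₀.R →+* R') hψ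
    refine algHom_eq_of_isEquiv DQ hR' (ψ.comp π) κ hloc hκ hκQ ?_
    obtain ⟨e1⟩ := baseChangeAlong_comp_isEquiv DQ.ρ (π : DQ.R →+* D₀.R) hπ (ψ : D₀.R →+* R') hψ
    obtain ⟨e2⟩ := heπ
    obtain ⟨e3⟩ := heψ
    exact ⟨(e1.symm.trans (e2.baseChangeAlong (ψ : D₀.R →+* R') hψ)).trans e3⟩
  have hcomp' : ∀ x, ψ (π x) = κ x := fun x => by rw [← hcomp]; rfl
  -- kernels
  have hk1 : RingHom.ker (κ : DQ.R →+* R') ≤ RingHom.ker (π : DQ.R →+* D₀.R) := hker π hπ heπ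
  have hk2 : RingHom.ker (π : DQ.R →+* D₀.R) ≤ RingHom.ker (κ : DQ.R →+* R') := by
    intro x hx
    rw [RingHom.mem_ker] at hx ⊢
    have h1 : π x = 0 := hx
    show κ x = 0
    rw [← hcomp' x, h1, map_zero]
  -- the inverse map `R' → R_∅`
  have hk1' : ∀ a : DQ.R, a ∈ RingHom.ker κ → π a = 0 := fun a ha => hk1 ha
  set e := Ideal.quotientKerAlgEquivOfSurjective hκs with he
  set πbar : R' →ₐ[𝒪] D₀.R :=
    (Ideal.Quotient.liftₐ (RingHom.ker κ) π hk1').comp (e.symm : R' →ₐ[𝒪] _) with hπbar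
  have hπbarκ : ∀ x, πbar (κ x) = π x := by
    intro x
    have h1 : e.symm (κ x) = Ideal.Quotient.mk (RingHom.ker κ) x := by
      rw [AlgEquiv.symm_apply_eq]
      rfl
    show (Ideal.Quotient.liftₐ (RingHom.ker κ) π hk1') (e.symm (κ x)) = π x
    rw [h1]
    rfl
  have hπbarloc : IsLocalHom (πbar : R' →+* D₀.R) :=
    isLocalHom_of_residue_cover D₀.residue_surjective πbar
  -- `πbar ∘ ψ = id`
  have hid : πbar.comp ψ = AlgHom.id 𝒪 D₀.R := by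
    obtain ⟨φ0, -, huniq⟩ :=
      D₀.universal D₀.R D₀.residue_surjective D₀.ρ D₀.isOfType D₀.residual_isEquiv
    have hloc1 : IsLocalHom ((πbar.comp ψ : D₀.R →ₐ[𝒪] D₀.R) : D₀.R →+* D₀.R) :=
      isLocalHom_comp' (ψ : D₀.R →+* R') hψ (πbar : R' →+* D₀.R) hπbarloc
    have hloc2 : IsLocalHom ((AlgHom.id 𝒪 D₀.R : D₀.R →ₐ[𝒪] D₀.R) : D₀.R →+* D₀.R) :=
      ⟨fun _ h => h⟩
    have he1 : (D₀.ρ.baseChangeAlong ((πbar.comp ψ : D₀.R →ₐ[𝒪] D₀.R) : D₀.R →+* D₀.R)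
        hloc1).IsEquiv D₀.ρ := by
      obtain ⟨e1⟩ := baseChangeAlong_comp_isEquiv D₀.ρ (ψ : D₀.R →+* R') hψ
        (πbar : R' →+* D₀.R) hπbarloc
      obtain ⟨e2⟩ := heψ
      obtain ⟨e3⟩ := baseChangeAlong_comp_isEquiv DQ.ρ (κ : DQ.R →+* R') hκ
        (πbar : R' →+* D₀.R) hπbarloc
      have hπκ : (πbar : R' →+* D₀.R).comp (κ : DQ.R →+* R') = (π : DQ.R →+* D₀.R) :=
        RingHom.ext hπbarκ
      obtain ⟨e4⟩ := baseChangeAlong_isEquiv_of_eq DQ.ρ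
        (isLocalHom_comp' (κ : DQ.R →+* R') hκ (πbar : R' →+* D₀.R) hπbarloc) hπ hπκ
      obtain ⟨e5⟩ := heπ
      exact ⟨(((e1.symm.trans (e2.baseChangeAlong (πbar : R' →+* D₀.R) hπbarloc)).trans e3).trans
        e4).trans e5⟩
    have he2 : (D₀.ρ.baseChangeAlong ((AlgHom.id 𝒪 D₀.R : D₀.R →ₐ[𝒪] D₀.R) : D₀.R →+* D₀.R)
        hloc2).IsEquiv D₀.ρ := baseChangeAlong_id_isEquiv D₀.ρ hloc2
    rw [huniq _ ⟨hloc1, he1⟩, huniq _ ⟨hloc2, he2⟩]
  have hid' : ∀ y, πbar (ψ y) = y := fun y => by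
    have := congrArg (fun f : D₀.R →ₐ[𝒪] D₀.R => f y) hid
    exact this
  -- conclusions
  have hπs : Surjective π := by
    intro y
    obtain ⟨x, hx⟩ := hκs (ψ y)
    exact ⟨x, by rw [← hπbarκ x, hx, hid' y]⟩
  have hψinj : Injective ψ := fun a b hab => by rw [← hid' a, ← hid' b, hab]
  have hψsurj : Surjective ψ := by
    intro z
    obtain ⟨x, hx⟩ := hκs z
    exact ⟨π x, by rw [hcomp' x, hx]⟩
  exact ⟨π, hπ, hπs, le_antisymm hk2 hk1, heπ,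
    AlgEquiv.ofBijective ψ ⟨hψinj, hψsurj⟩, fun x => hcomp' x⟩

/-- **`R_Q / 𝔞_Q ≅ R_∅`**: `𝒟₀ = 𝒟Q ∧ unramified at Q`, `𝔞_Q := inertiaIdeal DQ.ρ Q`.
Hypothesis form: `hQs` = stability of `𝒟Q` under surjective base change of `ρ_Q` (see
`exists_augQuot_inertia_of_isDeformationCondition`), `h0` = `𝒟Q ∧ unramified at Q ⟹ 𝒟₀`,
`hresQ` = `ρ̄` unramified at `Q` (`GB/Def/FrameTheta.residual_isUnramifiedAt`). -/
theorem exists_augQuot_inertia (Q : Finset ℕ)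
    (hresQ : ∀ q ∈ Q, DQ.ρ.residual.IsUnramifiedAt q)
    (h0Q : 𝒟Q D₀.ρ) (h0unr : ∀ q ∈ Q, D₀.ρ.IsUnramifiedAt q)
    (hQs : ∀ (R' : Type) [CommRing R'] [IsLocalRing R'] [IsNoetherianRing R']
      [IsAdicComplete (maximalIdeal R') R'] [Algebra 𝒪 R'], IsLocalHom (algebraMap 𝒪 R') →
      Surjective (IsLocalRing.residue R' ∘ algebraMap 𝒪 R') →
      ∀ (κ : DQ.R →ₐ[𝒪] R') (hκ : IsLocalHom (κ : DQ.R →+* R')), Surjective κ →
        𝒟Q (DQ.ρ.baseChangeAlong (κ : DQ.R →+* R') hκ))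
    (h0 : ∀ (R' : Type) [CommRing R'] [IsLocalRing R'] [Algebra 𝒪 R'] (ρ : GaloisRepAdic R'),
      𝒟Q ρ → (∀ q ∈ Q, ρ.IsUnramifiedAt q) → 𝒟₀ ρ) :
    ∃ (π : DQ.R →ₐ[𝒪] D₀.R) (hπ : IsLocalHom (π : DQ.R →+* D₀.R)),
      Surjective π ∧
      RingHom.ker (π : DQ.R →+* D₀.R) = inertiaIdeal DQ.ρ Q ∧
      (DQ.ρ.baseChangeAlong (π : DQ.R →+* D₀.R) hπ).IsEquiv D₀.ρ := by
  set I := inertiaIdeal DQ.ρ Q with hIdef
  have hI : I ≠ ⊤ := inertiaIdeal_ne_top DQ.ρ Q hresQ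
  haveI : IsLocalRing (DQ.R ⧸ I) := Fermat.Agent.S53_helper15.isLocalRing_quotient I hI
  haveI : IsAdicComplete (maximalIdeal (DQ.R ⧸ I)) (DQ.R ⧸ I) :=
    Fermat.Agent.S53_helper15.isAdicComplete_quotient I
  haveI hloc' : IsLocalHom (algebraMap 𝒪 (DQ.R ⧸ I)) :=
    isLocalHom_algebraMap_quot DQ.instIsLocalHom I
  have hR' : Surjective (IsLocalRing.residue (DQ.R ⧸ I) ∘ algebraMap 𝒪 (DQ.R ⧸ I)) :=
    residue_surjective_quot DQ.residue_surjective I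
  set κ : DQ.R →ₐ[𝒪] DQ.R ⧸ I := Ideal.Quotient.mkₐ 𝒪 I with hκdef
  have hκs : Surjective κ := Ideal.Quotient.mkₐ_surjective 𝒪 I
  have hκ : IsLocalHom (κ : DQ.R →+* DQ.R ⧸ I) := isLocalHom_of_residue_cover hR' κ
  have hkerκ : RingHom.ker (κ : DQ.R →+* DQ.R ⧸ I) = I := Ideal.mk_ker
  have hκQ := hQs (DQ.R ⧸ I) hloc' hR' κ hκ hκs
  have hunrκ : ∀ q ∈ Q, (DQ.ρ.baseChangeAlong (κ : DQ.R →+* DQ.R ⧸ I) hκ).IsUnramifiedAt q :=
    fun q hq => isUnramifiedAt_of_le_ker DQ.ρ Q (κ : DQ.R →+* DQ.R ⧸ I) hκ (le_of_eq hkerκ.symm) hq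
  have hκ0 := h0 (DQ.R ⧸ I) _ hκQ hunrκ
  obtain ⟨π, hπ, hπs, hπk, heπ, -⟩ := exists_augQuot D₀ DQ hR' κ hκ hκs h0Q hκ0 hκQ
    (fun φ hφ he => by
      rw [hkerκ]
      exact inertiaIdeal_le_ker DQ.ρ Q (φ : DQ.R →+* D₀.R) hφ D₀.ρ he h0unr)
  exact ⟨π, hπ, hπs, hπk.trans hkerκ, heπ⟩

/-- the same with `𝒟Q` a deformation condition (frozen `IsDeformationCondition`). -/
theorem exists_augQuot_inertia_of_isDeformationCondition
    (h𝒟Q : GaloisRep.IsDeformationCondition 𝒪 𝒟Q) (Q : Finset ℕ)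
    (hresQ : ∀ q ∈ Q, DQ.ρ.residual.IsUnramifiedAt q)
    (h0Q : 𝒟Q D₀.ρ) (h0unr : ∀ q ∈ Q, D₀.ρ.IsUnramifiedAt q)
    (h0 : ∀ (R' : Type) [CommRing R'] [IsLocalRing R'] [Algebra 𝒪 R'] (ρ : GaloisRepAdic R'),
      𝒟Q ρ → (∀ q ∈ Q, ρ.IsUnramifiedAt q) → 𝒟₀ ρ) :
    ∃ (π : DQ.R →ₐ[𝒪] D₀.R) (hπ : IsLocalHom (π : DQ.R →+* D₀.R)),
      Surjective π ∧
      RingHom.ker (π : DQ.R →+* D₀.R) = inertiaIdeal DQ.ρ Q ∧
      (DQ.ρ.baseChangeAlong (π : DQ.R →+* D₀.R) hπ).IsEquiv D₀.ρ :=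
  exists_augQuot_inertia D₀ DQ Q hresQ h0Q h0unr
    (fun _ _ _ _ _ _ hloc hres κ hκ hκs =>
      of_surjective_baseChange h𝒟Q DQ.instIsLocalHom DQ.residue_surjective hloc hres κ hκ hκs
        DQ.ρ DQ.isOfType) h0

/-- **`ψ_φ_X` of the Prelude `PatchingLevel`**: the classifying map `π : R_Q → R_∅` kills
`x − 1` for every inertia eigenvalue `x` of `ρ_Q` at a prime of `Q` on a basis vector (the
Taylor–Wiles characters `χ_{j,i}(s)`, `s ∈ I_{q_j}`, of `GB/E2/TWChars.exists_characters_*`). -/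
theorem map_sub_one_eq_zero (Q : Finset ℕ) (π : DQ.R →ₐ[𝒪] D₀.R)
    (hπk : RingHom.ker (π : DQ.R →+* D₀.R) = inertiaIdeal DQ.ρ Q) {q : ℕ} (hq : q ∈ Q)
    {P : ValuationSubring Qb} (hP : P.LiesOverPrime q) {s : GQ}
    (hs : s ∈ P.inertiaSubgroupIn ℚ) {ι : Type*} (B : Module.Basis ι DQ.R DQ.ρ.V) (i : ι)
    (x : DQ.R) (hx : DQ.ρ.ρ s (B i) = x • B i) : π x = 1 := by
  have h1 : x - 1 ∈ RingHom.ker (π : DQ.R →+* D₀.R) := by
    rw [hπk]
    exact sub_one_mem_inertiaIdeal DQ.ρ hq hP hs B i x hx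
  have h2 : π (x - 1) = 0 := h1
  rw [map_sub, map_one, sub_eq_zero] at h2
  exact h2

end Aug

end Fermat.Agent.GE2.AugQuot
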