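/-
GATE-E (S59, pre-work) / E2 residue, node GE2-DELTAQ (helper22).

**The inertia ideal at Taylor–Wiles primes is generated by `g_q − 1`, `g_q := χ_{q,0}(τ_q)`.**

`GE2/AugQuot` gives `π : R_Q ↠ R_∅` with `ker π = inertiaIdeal ρ_Q Q` (basis-free).  The abstract
Taylor–Wiles level of `GE6` consumes `units g_j ∈ R_Q, β : R_Q ↠ R, ker β = span (g_j − 1)`.  This
file is the link.

* `elemIdeal ρ s` : the ideal of the "entries" `f (ρ(s) v − v)` of `ρ(s) − 1` (basis-free);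
  `elemIdeal_conj_le` : conjugation invariance;
* `apply_sub_mem_elemIdeal_of_mem_inertia` : for a tame generator `τ₀` at `P` and `ρ` residually
  unramified at `P`, every `f (ρ(s) v − v)`, `s ∈ I_P`, lies in `elemIdeal ρ τ₀`
  (helper67's `IsTameGenerator.closure_principle` + Krull);
* `inertiaIdeal_singleton_eq_elemIdeal` : `inertiaIdeal ρ {q} = elemIdeal ρ τ₀` (ALL places over
  `q` are conjugate: `GP/Loc/PlaceConj`);
* `elemIdeal_eq_span_of_diag`, `elemIdeal_eq_span_of_diag_of_mul_eq_one` : diagonal case;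
* `inertiaIdeal_singleton_eq_span_char` : `ρ|D_P = χ₀ ⊕ χ₁`, `det ρ` cyclotomic
  ⟹ `inertiaIdeal ρ {q} = span {χ₀(τ₀) − 1}`;
* `inertiaIdeal_eq_iSup`, `inertiaIdeal_eq_span_image` : finite sets of primes;
* `exists_lifts_of_charpoly` : the frozen Taylor–Wiles shape (`α ≠ β`,
  `charpoly ρ̄(φ) = (X − α)(X − β)`) gives the inputs `a₀ b₀` of `GB/E2/TWChars`;
* `exists_tw_unit` : ONE Taylor–Wiles prime, all outputs; `exists_tw_units` : a finite set `Q`;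
* `exists_augQuot_units` : **`π : R_Q ↠ R_∅` local, `ker π = span {g_q − 1 : q ∈ Q}`**, in the
  frozen vocabulary of `DeformationRingData`.
-/
import Mathlib
import Fermat.Agent.GE2.AugQuot
import Fermat.Agent.GB.E2.TWChars
import Fermat.Agent.GB.E2.TWDet
import Fermat.Agent.GB.E2.TameGenAdic
import Fermat.Agent.GB.E2.TamePair
import Fermat.Agent.GB.E2.DeltaHom
import Fermat.Agent.GP.Loc.PlaceConj
import Fermat.Agent.S54_helper34.FrobeniusExists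

set_option autoImplicit false
set_option linter.unusedSectionVars false
set_option linter.style.haveILetI false

noncomputable section

namespace Fermat.Agent.GE2.DeltaQ

open IsLocalRing Function Polynomial
open scoped Pointwise
open Fermat.Agent.GE2.AugQuot Fermat.Agent.GB.E2.TameGenAdic Fermat.Agent.GJ.Tate.Carayol
  Fermat.Agent.GB.E2.TWDiag

/-- `ℚ̄`. -/
local notation "Qb" => AlgebraicClosure ℚ
/-- `G_ℚ`. -/
local notation "GQ" => (AlgebraicClosure ℚ ≃ₐ[ℚ] AlgebraicClosure ℚ)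

/-! ### Krull -/

/-- in a noetherian local ring every ideal is closed for the `𝔪`-adic topology. -/
theorem mem_of_forall_mem_sup_maxPow {A : Type*} [CommRing A] [IsLocalRing A] [IsNoetherianRing A]
    (J : Ideal A) (x : A) (h : ∀ n : ℕ, x ∈ J ⊔ maximalIdeal A ^ n) : x ∈ J := by
  have hbot := Ideal.iInf_pow_smul_eq_bot_of_isLocalRing (M := A ⧸ J) (maximalIdeal A)
    (maximalIdeal.isMaximal A).ne_top
  have hx : Ideal.Quotient.mk J x ∈ (⨅ i : ℕ, maximalIdeal A ^ i • (⊤ : Submodule A (A ⧸ J))) := by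
    rw [Submodule.mem_iInf]
    intro n
    obtain ⟨j, hj, m, hm, rfl⟩ := Submodule.mem_sup.mp (h n)
    have e : Ideal.Quotient.mk J (j + m) = m • (1 : A ⧸ J) := by
      rw [map_add, Ideal.Quotient.eq_zero_iff_mem.mpr hj, zero_add, Algebra.smul_def, mul_one]
      rfl
    rw [e]
    exact Submodule.smul_mem_smul hm Submodule.mem_top
  rw [hbot, Submodule.mem_bot] at hx
  exact Ideal.Quotient.eq_zero_iff_mem.mp hx

/-! ### the ideal of entries of `ρ(s) − 1` -/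

section Elem

variable {A : Type} [CommRing A] [IsLocalRing A]

/-- the ideal generated by the "entries" of `ρ(s) − 1` (basis-free). -/
def elemIdeal (ρ : GaloisRepAdic A) (s : GQ) : Ideal A :=
  Ideal.span {a | ∃ (v : ρ.V) (f : ρ.V →ₗ[A] A), a = f (ρ.ρ s v - v)}

theorem apply_sub_mem_elemIdeal (ρ : GaloisRepAdic A) (s : GQ) (v : ρ.V) (f : ρ.V →ₗ[A] A) :
    f (ρ.ρ s v - v) ∈ elemIdeal ρ s :=
  Ideal.subset_span ⟨v, f, rfl⟩

/-- the entries of `ρ(s)^k − 1` lie in the ideal of entries of `ρ(s) − 1`. -/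
theorem apply_pow_sub_mem_elemIdeal (ρ : GaloisRepAdic A) (s : GQ) (k : ℕ) (v : ρ.V)
    (f : ρ.V →ₗ[A] A) : f ((ρ.ρ s ^ k) v - v) ∈ elemIdeal ρ s := by
  induction k generalizing v with
  | zero =>
    rw [pow_zero, Module.End.one_apply, sub_self, map_zero]
    exact Ideal.zero_mem _
  | succ k ih =>
    have e : (ρ.ρ s ^ (k + 1)) v - v =
        ((ρ.ρ s ^ k) (ρ.ρ s v) - ρ.ρ s v) + (ρ.ρ s v - v) := by
      rw [pow_succ, Module.End.mul_apply]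
      abel
    rw [e, map_add]
    exact Ideal.add_mem _ (ih _) (apply_sub_mem_elemIdeal ρ s v f)

/-- conjugation invariance, one inclusion. -/
theorem elemIdeal_conj_le (ρ : GaloisRepAdic A) (g s : GQ) :
    elemIdeal ρ (g * s * g⁻¹) ≤ elemIdeal ρ s := by
  refine Ideal.span_le.mpr ?_
  rintro a ⟨v, f, rfl⟩
  have e : ρ.ρ (g * s * g⁻¹) v - v = ρ.ρ g (ρ.ρ s (ρ.ρ g⁻¹ v) - ρ.ρ g⁻¹ v) := by
    have h1 : ρ.ρ g (ρ.ρ g⁻¹ v) = v := by
      rw [← Module.End.mul_apply, ← map_mul, mul_inv_cancel, map_one, Module.End.one_apply]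
    rw [map_sub, h1, map_mul, map_mul, Module.End.mul_apply, Module.End.mul_apply]
  rw [e]
  exact apply_sub_mem_elemIdeal ρ s (ρ.ρ g⁻¹ v) (f.comp (ρ.ρ g))

/-- conjugation invariance. -/
theorem elemIdeal_conj (ρ : GaloisRepAdic A) (g s : GQ) :
    elemIdeal ρ (g * s * g⁻¹) = elemIdeal ρ s := by
  refine le_antisymm (elemIdeal_conj_le ρ g s) ?_
  have h := elemIdeal_conj_le ρ g⁻¹ (g * s * g⁻¹)
  have e : g⁻¹ * (g * s * g⁻¹) * g⁻¹⁻¹ = s := by group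
  rwa [e] at h

/-- entries of `X − Y` when `X ≡ Y mod I` in the chosen basis. -/
theorem apply_sub_apply_mem_of_redMat_eq (ρ : GaloisRepAdic A) (I : Ideal A)
    (X Y : Module.End A ρ.V) (h : redMat I ρ.V X = redMat I ρ.V Y) (v : ρ.V)
    (f : ρ.V →ₗ[A] A) : f (X v) - f (Y v) ∈ I := by
  classical
  set b := Module.Free.chooseBasis A ρ.V with hb
  have hb' : ∀ j, (X - Y) (b j) ∈ I • (⊤ : Submodule A ρ.V) := by
    intro j
    rw [← b.sum_repr ((X - Y) (b j))]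
    refine Submodule.sum_mem _ fun i _ => ?_
    refine Submodule.smul_mem_smul ?_ Submodule.mem_top
    have h1 : redMat I ρ.V (X - Y) i j = 0 := by
      rw [map_sub, h, sub_self, Matrix.zero_apply]
    rw [redMat_apply] at h1
    exact Ideal.Quotient.eq_zero_iff_mem.mp h1
  have hv : (X - Y) v ∈ I • (⊤ : Submodule A ρ.V) := by
    rw [← b.sum_repr v, map_sum]
    refine Submodule.sum_mem _ fun j _ => ?_
    rw [map_smul]
    exact Submodule.smul_mem _ _ (hb' j)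
  have h2 : f ((X - Y) v) ∈ I := by
    refine Submodule.smul_induction_on hv ?_ ?_
    · intro a ha w _
      rw [map_smul, smul_eq_mul]
      exact Ideal.mul_mem_right _ _ ha
    · intro x y hx hy
      rw [map_add]
      exact Ideal.add_mem _ hx hy
  rwa [LinearMap.sub_apply, map_sub] at h2

variable [IsNoetherianRing A]

/-- **the tame generator generates the inertia ideal at its place** (basis-free form). -/
theorem apply_sub_mem_elemIdeal_of_mem_inertia (ρ : GaloisRepAdic A)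
    {P : ValuationSubring Qb} {p : ℕ} {τ₀ : GQ} (h : IsTameGenerator P p τ₀) (hp : p.Prime)
    (hpA : (p : A) ∈ maximalIdeal A)
    (hunr : ∀ s ∈ P.inertiaSubgroupIn ℚ, ∀ v : ρ.V,
      ρ.ρ s v - v ∈ maximalIdeal A • (⊤ : Submodule A ρ.V))
    {s : GQ} (hs : s ∈ P.inertiaSubgroupIn ℚ) (v : ρ.V) (f : ρ.V →ₗ[A] A) :
    f (ρ.ρ s v - v) ∈ elemIdeal ρ τ₀ := by
  have key := h.closure_principle ρ hp hpA hunr
    (fun X => ∀ (v : ρ.V) (f : ρ.V →ₗ[A] A), f (X v - v) ∈ elemIdeal ρ τ₀) ?_ ?_ hs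
  · exact key v f
  · intro X hX v f
    refine mem_of_forall_mem_sup_maxPow _ _ fun n => ?_
    obtain ⟨Y, hY, hXY⟩ := hX n
    have e : f (X v - v) = f (Y v - v) + (f (X v) - f (Y v)) := by
      rw [map_sub, map_sub]
      ring
    rw [e]
    exact Submodule.add_mem_sup (hY v f) (apply_sub_apply_mem_of_redMat_eq ρ _ X Y hXY v f)
  · intro j v f
    exact apply_pow_sub_mem_elemIdeal ρ τ₀ j v f

theorem elemIdeal_le_of_mem_inertia (ρ : GaloisRepAdic A)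
    {P : ValuationSubring Qb} {p : ℕ} {τ₀ : GQ} (h : IsTameGenerator P p τ₀) (hp : p.Prime)
    (hpA : (p : A) ∈ maximalIdeal A)
    (hunr : ∀ s ∈ P.inertiaSubgroupIn ℚ, ∀ v : ρ.V,
      ρ.ρ s v - v ∈ maximalIdeal A • (⊤ : Submodule A ρ.V))
    {s : GQ} (hs : s ∈ P.inertiaSubgroupIn ℚ) : elemIdeal ρ s ≤ elemIdeal ρ τ₀ := by
  refine Ideal.span_le.mpr ?_
  rintro a ⟨v, f, rfl⟩
  exact apply_sub_mem_elemIdeal_of_mem_inertia ρ h hp hpA hunr hs v f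

/-- residually unramified at `q`, in the `𝔪 V` form. -/
theorem sub_mem_smul_top_of_residual (ρ : GaloisRepAdic A) {q : ℕ}
    (hres : ρ.residual.IsUnramifiedAt q) {P : ValuationSubring Qb} (hP : P.LiesOverPrime q) :
    ∀ s ∈ P.inertiaSubgroupIn ℚ, ∀ v : ρ.V,
      ρ.ρ s v - v ∈ maximalIdeal A • (⊤ : Submodule A ρ.V) :=
  fun s hs v => sub_mem_smul_top_of_baseChange_eq_one (ρ.ρ s) (hres P hP s hs) v

/-- **the inertia ideal at `q` is generated at ONE place by ONE element of inertia.** -/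
theorem inertiaIdeal_singleton_eq_elemIdeal (ρ : GaloisRepAdic A) {p q : ℕ} (hp : p.Prime)
    (hpA : (p : A) ∈ maximalIdeal A) (hq : q.Prime) {P : ValuationSubring Qb}
    (hP : P.LiesOverPrime q) {τ₀ : GQ} (h : IsTameGenerator P p τ₀)
    (hres : ρ.residual.IsUnramifiedAt q) : inertiaIdeal ρ {q} = elemIdeal ρ τ₀ := by
  refine le_antisymm (Ideal.span_le.mpr ?_) (Ideal.span_le.mpr ?_)
  · rintro a ⟨q', hq', P', hP', s, hs, v, f, rfl⟩
    rw [Finset.mem_singleton] at hq'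
    subst hq'
    obtain ⟨g, rfl⟩ := Fermat.Agent.GP.Loc.PlaceConj.exists_smul_eq_of_liesOverPrime hq P P' hP hP'
    have hs' : g⁻¹ * s * g⁻¹⁻¹ ∈ P.inertiaSubgroupIn ℚ := by
      have h1 := Fermat.Agent.GC.C0.conj_mem_inertiaSubgroupIn g⁻¹ hs
      have h0 : g⁻¹ • g • P = P := inv_smul_smul g P
      rwa [h0] at h1
    have h2 : elemIdeal ρ s ≤ elemIdeal ρ τ₀ := by
      rw [← elemIdeal_conj ρ g⁻¹ s]
      exact elemIdeal_le_of_mem_inertia ρ h hp hpA (sub_mem_smul_top_of_residual ρ hres hP) hs'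
    exact h2 (apply_sub_mem_elemIdeal ρ s v f)
  · rintro a ⟨v, f, rfl⟩
    exact apply_sub_mem_inertiaIdeal ρ (Finset.mem_singleton_self q) hP h.mem_inertia v f

end Elem

/-! ### the diagonal case -/

section Diag

variable {A : Type} [CommRing A] [IsLocalRing A]

theorem elemIdeal_eq_span_of_diag (ρ : GaloisRepAdic A) (s : GQ)
    (B : Module.Basis (Fin 2) A ρ.V) (x : Fin 2 → A) (hx : ∀ i, ρ.ρ s (B i) = x i • B i) :
    elemIdeal ρ s = Ideal.span {x 0 - 1, x 1 - 1} := by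
  refine le_antisymm (Ideal.span_le.mpr ?_) (Ideal.span_le.mpr ?_)
  · rintro a ⟨v, f, rfl⟩
    have hv : v = B.repr v 0 • B 0 + B.repr v 1 • B 1 := by
      rw [← Fin.sum_univ_two (fun i => B.repr v i • B i), B.sum_repr]
    obtain ⟨c0, c1, rfl⟩ : ∃ c0 c1 : A, v = c0 • B 0 + c1 • B 1 := ⟨_, _, hv⟩
    have e : ρ.ρ s (c0 • B 0 + c1 • B 1) - (c0 • B 0 + c1 • B 1) =
        (c0 * (x 0 - 1)) • B 0 + (c1 * (x 1 - 1)) • B 1 := by
      rw [map_add, map_smul, map_smul, hx, hx]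
      module
    rw [e, map_add, map_smul, map_smul, smul_eq_mul, smul_eq_mul]
    refine Ideal.add_mem _ ?_ ?_
    · refine Ideal.mul_mem_right _ _ (Ideal.mul_mem_left _ _ (Ideal.subset_span ?_))
      exact Set.mem_insert _ _
    · refine Ideal.mul_mem_right _ _ (Ideal.mul_mem_left _ _ (Ideal.subset_span ?_))
      exact Set.mem_insert_of_mem _ rfl
  · have key : ∀ i, x i - 1 ∈ elemIdeal ρ s := by
      intro i
      have h := apply_sub_mem_elemIdeal ρ s (B i) (B.coord i)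
      rw [hx, map_sub, map_smul, Module.Basis.coord_apply, Module.Basis.repr_self,
        Finsupp.single_eq_same, smul_eq_mul, mul_one] at h
      exact h
    rintro a (rfl | rfl)
    · exact key 0
    · exact key 1

theorem elemIdeal_eq_span_of_diag_of_mul_eq_one (ρ : GaloisRepAdic A) (s : GQ)
    (B : Module.Basis (Fin 2) A ρ.V) (x : Fin 2 → A) (hx : ∀ i, ρ.ρ s (B i) = x i • B i)
    (h1 : x 0 * x 1 = 1) : elemIdeal ρ s = Ideal.span {x 0 - 1} := by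
  rw [elemIdeal_eq_span_of_diag ρ s B x hx]
  refine le_antisymm (Ideal.span_le.mpr ?_) (Ideal.span_mono ?_)
  · rintro a (rfl | rfl)
    · exact Ideal.subset_span rfl
    · have e : x 1 - 1 = -x 1 * (x 0 - 1) := by linear_combination h1
      rw [e]
      exact Ideal.mul_mem_left _ _ (Ideal.subset_span rfl)
  · intro a ha
    rw [Set.mem_singleton_iff] at ha
    subst ha
    exact Set.mem_insert _ _

variable [IsNoetherianRing A]

/-- **`inertiaIdeal ρ {q} = (χ₀(τ₀) − 1)`** for `ρ|D_P = χ₀ ⊕ χ₁` with cyclotomic determinant. -/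
theorem inertiaIdeal_singleton_eq_span_char (ρ : GaloisRepAdic A) {p q : ℕ} (hp : p.Prime)
    (hq : q.Prime) (hpq : p ≠ q) {P : ValuationSubring Qb} (hP : P.LiesOverPrime q)
    (hdet : ρ.DetIsCyclotomic p) (hres : ρ.residual.IsUnramifiedAt q)
    {τ₀ : GQ} (h : IsTameGenerator P p τ₀)
    (B : Module.Basis (Fin 2) A ρ.V) (χ : Fin 2 → P.decompositionSubgroup ℚ →* Aˣ)
    (hχ : ∀ (i : Fin 2) (σ : P.decompositionSubgroup ℚ),
      ρ.ρ (σ : GQ) (B i) = (χ i σ : A) • B i) :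
    inertiaIdeal ρ {q} =
      Ideal.span {(χ 0 ⟨τ₀, inertia_le_decomposition P h.mem_inertia⟩ : A) - 1} := by
  rw [inertiaIdeal_singleton_eq_elemIdeal ρ hp hdet.1 hq hP h hres]
  set τ' : P.decompositionSubgroup ℚ := ⟨τ₀, inertia_le_decomposition P h.mem_inertia⟩ with hτ'
  refine elemIdeal_eq_span_of_diag_of_mul_eq_one ρ τ₀ B (fun i => (χ i τ' : A))
    (fun i => hχ i τ') ?_
  have h1 := Fermat.Agent.GB.E2.TWDet.chars_mul_eq_det ρ (P.decompositionSubgroup ℚ) B χ hχ τ'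
  have h2 : LinearMap.det (ρ.ρ τ₀) = 1 :=
    Fermat.Agent.GB.E2.TamePair.det_eq_one_of_mem_inertia ρ P hdet hp hq hpq hP h.mem_inertia
  have h3 := congrArg Units.val h1
  rw [Units.val_mul] at h3
  rw [h3]
  exact h2

end Diag

/-! ### finite sets of primes -/

section Finset

variable {A : Type} [CommRing A] [IsLocalRing A]

theorem inertiaIdeal_mono (ρ : GaloisRepAdic A) {Q Q' : Finset ℕ} (h : Q ⊆ Q') :
    inertiaIdeal ρ Q ≤ inertiaIdeal ρ Q' := by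
  refine Ideal.span_mono ?_
  rintro a ⟨q, hq, P, hP, s, hs, v, f, rfl⟩
  exact ⟨q, h hq, P, hP, s, hs, v, f, rfl⟩

theorem inertiaIdeal_eq_iSup (ρ : GaloisRepAdic A) (Q : Finset ℕ) :
    inertiaIdeal ρ Q = ⨆ q ∈ Q, inertiaIdeal ρ {q} := by
  refine le_antisymm (Ideal.span_le.mpr ?_) (iSup₂_le fun q hq => ?_)
  · rintro a ⟨q, hq, P, hP, s, hs, v, f, rfl⟩
    have h1 : f (ρ.ρ s v - v) ∈ inertiaIdeal ρ {q} :=
      apply_sub_mem_inertiaIdeal ρ (Finset.mem_singleton_self q) hP hs v f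
    exact (le_iSup₂ (f := fun q (_ : q ∈ Q) => inertiaIdeal ρ {q}) q hq) h1
  · exact inertiaIdeal_mono ρ (Finset.singleton_subset_iff.mpr hq)

/-- principal generators at each prime of `Q` generate `inertiaIdeal ρ Q`. -/
theorem inertiaIdeal_eq_span_image (ρ : GaloisRepAdic A) (Q : Finset ℕ) (g : ℕ → A)
    (hg : ∀ q ∈ Q, inertiaIdeal ρ {q} = Ideal.span {g q - 1}) :
    inertiaIdeal ρ Q = Ideal.span ((fun q => g q - 1) '' (Q : Set ℕ)) := by
  rw [inertiaIdeal_eq_iSup]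
  refine le_antisymm (iSup₂_le fun q hq => ?_) (Ideal.span_le.mpr ?_)
  · rw [hg q hq]
    refine Ideal.span_mono ?_
    intro a ha
    rw [Set.mem_singleton_iff] at ha
    subst ha
    exact ⟨q, hq, rfl⟩
  · rintro a ⟨q, hq, rfl⟩
    have h1 : g q - 1 ∈ inertiaIdeal ρ {q} := by
      rw [hg q hq]
      exact Ideal.subset_span rfl
    exact (le_iSup₂ (f := fun q (_ : q ∈ Q) => inertiaIdeal ρ {q}) q hq) h1

end Finset

/-! ### Taylor–Wiles primes -/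

section TW

variable {A : Type} [CommRing A] [IsLocalRing A]

/-- `(X − a)(X − b) = X² − (a + b) X + ab`. -/
theorem sub_C_mul_sub_C {R : Type*} [CommRing R] (a b : R) :
    ((X : R[X]) - C a) * (X - C b) = X ^ 2 - C (a + b) * X + C (a * b) := by
  rw [C_add, C_mul]
  ring

/-- coefficient extraction from `X² − tX + d = X² − t'X + d'`. -/
theorem quad_coeffs_eq {R : Type*} [CommRing R] {t d t' d' : R}
    (h : (X : R[X]) ^ 2 - C t * X + C d = X ^ 2 - C t' * X + C d') : t = t' ∧ d = d' := by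
  have h1 := congrArg (fun P : R[X] => P.coeff 1) h
  have h0 := congrArg (fun P : R[X] => P.coeff 0) h
  simp only [coeff_add, coeff_sub, coeff_X_pow, coeff_C_mul, coeff_X_one, mul_one, coeff_C,
    coeff_X_zero, mul_zero] at h1 h0
  have h12 : ¬ ((1 : ℕ) = 2) := by decide
  have h02 : ¬ ((0 : ℕ) = 2) := by decide
  simp only [h12, h02, one_ne_zero, if_false, if_true, zero_sub, add_zero, neg_inj, sub_zero,
    zero_add] at h1 h0
  exact ⟨h1, h0⟩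

/-- **the frozen Taylor–Wiles shape gives the inputs of `GB/E2/TWChars`**: if `ρ̄(φ)` has the two
distinct eigenvalues `ā₀ ≠ b̄₀`, then `a₀, b₀` are as required. -/
theorem lifts_of_charpoly (ρ : GaloisRepAdic A) (φ : GQ) (a₀ b₀ : A)
    (hne : residue A a₀ ≠ residue A b₀)
    (h : LinearMap.charpoly (ρ.residual.ρ φ) = (X - C (residue A a₀)) * (X - C (residue A b₀))) :
    LinearMap.trace A ρ.V (ρ.ρ φ) - (a₀ + b₀) ∈ maximalIdeal A ∧
      LinearMap.det (ρ.ρ φ) - a₀ * b₀ ∈ maximalIdeal A ∧ IsUnit (a₀ - b₀) := by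
  have h1 : LinearMap.charpoly (ρ.residual.ρ φ) =
      (LinearMap.charpoly (ρ.ρ φ)).map (residue A) :=
    LinearMap.charpoly_baseChange (ρ.ρ φ) (ResidueField A)
  rw [Fermat.Agent.GK.Tate.charpoly_eq_of_finrank_two ρ.finrank_eq (ρ.ρ φ), h,
    sub_C_mul_sub_C, Polynomial.map_add, Polynomial.map_sub, Polynomial.map_mul,
    Polynomial.map_pow, Polynomial.map_X, Polynomial.map_C, Polynomial.map_C] at h1
  obtain ⟨ht, hd⟩ := quad_coeffs_eq h1
  refine ⟨?_, ?_, ?_⟩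
  · rw [← residue_eq_zero_iff, map_sub, map_add, ← ht, sub_self]
  · rw [← residue_eq_zero_iff, map_sub, map_mul, ← hd, sub_self]
  · by_contra hnu
    have h2 : residue A (a₀ - b₀) = 0 := (residue_eq_zero_iff _).mpr ((mem_maximalIdeal _).mpr hnu)
    rw [map_sub, sub_eq_zero] at h2
    exact hne h2

/-- existence form. -/
theorem exists_lifts_of_charpoly (ρ : GaloisRepAdic A) (φ : GQ) (α β : ResidueField A)
    (hαβ : α ≠ β) (h : LinearMap.charpoly (ρ.residual.ρ φ) = (X - C α) * (X - C β)) :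
    ∃ a₀ b₀ : A, residue A a₀ = α ∧ residue A b₀ = β ∧
      LinearMap.trace A ρ.V (ρ.ρ φ) - (a₀ + b₀) ∈ maximalIdeal A ∧
      LinearMap.det (ρ.ρ φ) - a₀ * b₀ ∈ maximalIdeal A ∧ IsUnit (a₀ - b₀) := by
  obtain ⟨a₀, rfl⟩ := residue_surjective α
  obtain ⟨b₀, rfl⟩ := residue_surjective β
  obtain ⟨h1, h2, h3⟩ := lifts_of_charpoly ρ φ a₀ b₀ hαβ h
  exact ⟨a₀, b₀, rfl, rfl, h1, h2, h3⟩

/-- `q ≡ 1 mod p` and `p ∈ 𝔪` give `q − 1 ∈ 𝔪`. -/
theorem natCast_sub_one_mem {p q : ℕ} (hpA : (p : A) ∈ maximalIdeal A) (hq : 0 < q)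
    (h : p ∣ q - 1) : (q : A) - 1 ∈ maximalIdeal A := by
  obtain ⟨m, hm⟩ := h
  have e : (q : A) - 1 = (p : A) * (m : A) := by
    have h1 : q = p * m + 1 := by omega
    rw [h1]
    push_cast
    ring
  rw [e]
  exact Ideal.mul_mem_right _ _ hpA

variable [IsNoetherianRing A] [IsAdicComplete (maximalIdeal A) A]

/-- **ONE Taylor–Wiles prime**: the characters, the unit `g = χ₀(τ₀)` and the inertia ideal. -/
theorem exists_tw_unit (ρ : GaloisRepAdic A) {p q : ℕ} (hp : p.Prime) (hq : q.Prime)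
    (hpq : p ≠ q) (hdet : ρ.DetIsCyclotomic p) (hres : ρ.residual.IsUnramifiedAt q)
    (hq1 : (q : A) - 1 ∈ maximalIdeal A)
    (P : ValuationSubring Qb) (hP : P.LiesOverPrime q) {φ : GQ} (hφ : P.IsFrobeniusAt φ q)
    (a₀ b₀ : A) (htr : LinearMap.trace A ρ.V (ρ.ρ φ) - (a₀ + b₀) ∈ maximalIdeal A)
    (hd : LinearMap.det (ρ.ρ φ) - a₀ * b₀ ∈ maximalIdeal A) (hab : IsUnit (a₀ - b₀))
    {τ₀ : GQ} (hτ : IsTameGenerator P p τ₀) :
    ∃ (B : Module.Basis (Fin 2) A ρ.V) (χ : Fin 2 → P.decompositionSubgroup ℚ →* Aˣ),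
      (∀ (i : Fin 2) (σ : P.decompositionSubgroup ℚ),
        ρ.ρ (σ : GQ) (B i) = (χ i σ : A) • B i) ∧
      (χ 0 ⟨φ, hφ.mem_decompositionSubgroup⟩ : A) - a₀ ∈ maximalIdeal A ∧
      (χ 1 ⟨φ, hφ.mem_decompositionSubgroup⟩ : A) - b₀ ∈ maximalIdeal A ∧
      (χ 0 ⟨τ₀, inertia_le_decomposition P hτ.mem_inertia⟩ : A) - 1 ∈ maximalIdeal A ∧
      (∀ a m : ℕ, q = p ^ a * m + 1 → ¬ p ∣ m →
        χ 0 ⟨τ₀, inertia_le_decomposition P hτ.mem_inertia⟩ ^ p ^ a = 1) ∧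
      inertiaIdeal ρ {q} =
        Ideal.span {(χ 0 ⟨τ₀, inertia_le_decomposition P hτ.mem_inertia⟩ : A) - 1} := by
  letI : HenselianLocalRing A := henselianLocalRing_of_henselianRing A
  obtain ⟨B, χ, hχ, h0, h1, hin⟩ :=
    Fermat.Agent.GB.E2.TWChars.exists_characters_of_residual ρ P hp hdet.1 hq hpq hP hφ a₀ b₀
      htr hd hab hres hq1
  refine ⟨B, χ, hχ, h0, h1, (hin 0 τ₀ hτ.mem_inertia).1, fun a m hqam hm => ?_, ?_⟩
  · exact Fermat.Agent.GB.E2.DeltaHom.units_pow_ppart_eq_one hp hdet.1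
      (hin 0 τ₀ hτ.mem_inertia).1 hqam hm (hin 0 τ₀ hτ.mem_inertia).2
  · exact inertiaIdeal_singleton_eq_span_char ρ hp hq hpq hP hdet hres hτ B χ hχ

/-- **a finite set `Q` of Taylor–Wiles primes**, with the data `P_q, φ_q, a₀, b₀, τ_q` as inputs:
units `g_q = χ_{q,0}(τ_q)` with `inertiaIdeal ρ Q = (g_q − 1 : q ∈ Q)`. -/
theorem exists_tw_units (ρ : GaloisRepAdic A) {p : ℕ} (hp : p.Prime)
    (hdet : ρ.DetIsCyclotomic p) (Q : Finset ℕ)
    (hQ : ∀ q ∈ Q, q.Prime ∧ p ≠ q ∧ (q : A) - 1 ∈ maximalIdeal A)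
    (hres : ∀ q ∈ Q, ρ.residual.IsUnramifiedAt q)
    (P : ℕ → ValuationSubring Qb) (hP : ∀ q ∈ Q, (P q).LiesOverPrime q)
    (φ : ℕ → GQ) (hφ : ∀ q ∈ Q, (P q).IsFrobeniusAt (φ q) q)
    (a₀ b₀ : ℕ → A)
    (htr : ∀ q ∈ Q, LinearMap.trace A ρ.V (ρ.ρ (φ q)) - (a₀ q + b₀ q) ∈ maximalIdeal A)
    (hd : ∀ q ∈ Q, LinearMap.det (ρ.ρ (φ q)) - a₀ q * b₀ q ∈ maximalIdeal A)
    (hab : ∀ q ∈ Q, IsUnit (a₀ q - b₀ q))
    (τ : ℕ → GQ) (hτ : ∀ q ∈ Q, IsTameGenerator (P q) p (τ q)) :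
    ∃ g : ℕ → Aˣ,
      (∀ q (hq : q ∈ Q), ∃ (B : Module.Basis (Fin 2) A ρ.V)
        (χ : Fin 2 → (P q).decompositionSubgroup ℚ →* Aˣ),
        (∀ (i : Fin 2) (σ : (P q).decompositionSubgroup ℚ),
          ρ.ρ (σ : GQ) (B i) = (χ i σ : A) • B i) ∧
        (χ 0 ⟨φ q, (hφ q hq).mem_decompositionSubgroup⟩ : A) - a₀ q ∈ maximalIdeal A ∧
        (χ 1 ⟨φ q, (hφ q hq).mem_decompositionSubgroup⟩ : A) - b₀ q ∈ maximalIdeal A ∧
        g q = χ 0 ⟨τ q, inertia_le_decomposition (P q) (hτ q hq).mem_inertia⟩) ∧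
      (∀ q ∈ Q, (g q : A) - 1 ∈ maximalIdeal A) ∧
      (∀ q ∈ Q, ∀ a m : ℕ, q = p ^ a * m + 1 → ¬ p ∣ m → g q ^ p ^ a = 1) ∧
      (∀ q ∈ Q, inertiaIdeal ρ {q} = Ideal.span {(g q : A) - 1}) ∧
      inertiaIdeal ρ Q = Ideal.span ((fun q => (g q : A) - 1) '' (Q : Set ℕ)) := by
  classical
  have key : ∀ q (hq : q ∈ Q), ∃ u : Aˣ,
      (∃ (B : Module.Basis (Fin 2) A ρ.V)
        (χ : Fin 2 → (P q).decompositionSubgroup ℚ →* Aˣ),
        (∀ (i : Fin 2) (σ : (P q).decompositionSubgroup ℚ),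
          ρ.ρ (σ : GQ) (B i) = (χ i σ : A) • B i) ∧
        (χ 0 ⟨φ q, (hφ q hq).mem_decompositionSubgroup⟩ : A) - a₀ q ∈ maximalIdeal A ∧
        (χ 1 ⟨φ q, (hφ q hq).mem_decompositionSubgroup⟩ : A) - b₀ q ∈ maximalIdeal A ∧
        u = χ 0 ⟨τ q, inertia_le_decomposition (P q) (hτ q hq).mem_inertia⟩) ∧
      (u : A) - 1 ∈ maximalIdeal A ∧
      (∀ a m : ℕ, q = p ^ a * m + 1 → ¬ p ∣ m → u ^ p ^ a = 1) ∧
      inertiaIdeal ρ {q} = Ideal.span {(u : A) - 1} := by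
    intro q hq
    obtain ⟨hqp, hpq, hq1⟩ := hQ q hq
    obtain ⟨B, χ, hχ, h0, h1, hm, hpow, hI⟩ := exists_tw_unit ρ hp hqp hpq hdet (hres q hq) hq1
      (P q) (hP q hq) (hφ q hq) (a₀ q) (b₀ q) (htr q hq) (hd q hq) (hab q hq) (hτ q hq)
    exact ⟨_, ⟨B, χ, hχ, h0, h1, rfl⟩, hm, hpow, hI⟩
  choose u hu1 hu2 hu3 hu4 using key
  set g : ℕ → Aˣ := fun q => if hq : q ∈ Q then u q hq else 1 with hgdef
  have hg : ∀ q (hq : q ∈ Q), g q = u q hq := fun q hq => dif_pos hq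
  refine ⟨g, ?_, ?_, ?_, ?_, ?_⟩
  · intro q hq
    obtain ⟨B, χ, hχ, h0, h1, hgu⟩ := hu1 q hq
    exact ⟨B, χ, hχ, h0, h1, (hg q hq).trans hgu⟩
  · intro q hq
    rw [hg q hq]
    exact hu2 q hq
  · intro q hq
    rw [hg q hq]
    exact hu3 q hq
  · intro q hq
    rw [hg q hq]
    exact hu4 q hq
  · refine inertiaIdeal_eq_span_image ρ Q (fun q => (g q : A)) fun q hq => ?_
    show inertiaIdeal ρ {q} = Ideal.span {(g q : A) - 1}
    rw [hg q hq]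
    exact hu4 q hq

end TW

/-! ### the universal deformation ring -/

section Residual

variable {k k' : Type} [Field k] [Field k']

/-- a representation isomorphic to a base change of `ρ̄` is unramified where `ρ̄` is. -/
theorem isUnramifiedAt_of_isEquiv_baseChangeAlong (ψ : k →+* k') (ρbar : ResidualGaloisRep k)
    (ρ' : ResidualGaloisRep k') (he : ρ'.IsEquiv (ρbar.baseChangeAlong ψ)) {q : ℕ}
    (h : ρbar.IsUnramifiedAt q) : ρ'.IsUnramifiedAt q := by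
  obtain ⟨e⟩ := he
  intro P hP s hs
  have h1 : (ρbar.baseChangeAlong ψ).ρ s = 1 := by
    letI : Algebra k k' := ψ.toAlgebra
    show (ρbar.ρ s).baseChange k' = 1
    rw [h P hP s hs, LinearMap.baseChange_one]
  refine LinearMap.ext fun x => ?_
  apply e.toLinearEquiv.injective
  rw [e.map_apply, h1, Module.End.one_apply, Module.End.one_apply]

/-- characteristic polynomials of a representation isomorphic to a base change of `ρ̄`. -/
theorem charpoly_of_isEquiv_baseChangeAlong (ψ : k →+* k') (ρbar : ResidualGaloisRep k)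
    (ρ' : ResidualGaloisRep k') (he : ρ'.IsEquiv (ρbar.baseChangeAlong ψ)) (σ : GQ) :
    LinearMap.charpoly (ρ'.ρ σ) = (LinearMap.charpoly (ρbar.ρ σ)).map ψ := by
  obtain ⟨e⟩ := he
  have h2 : (ρbar.baseChangeAlong ψ).ρ σ = e.toLinearEquiv.conj (ρ'.ρ σ) := by
    apply LinearMap.ext
    intro x
    rw [LinearEquiv.conj_apply_apply, e.map_apply, LinearEquiv.apply_symm_apply]
  have h3 : LinearMap.charpoly ((ρbar.baseChangeAlong ψ).ρ σ) =
      (LinearMap.charpoly (ρbar.ρ σ)).map ψ := by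
    letI : Algebra k k' := ψ.toAlgebra
    exact LinearMap.charpoly_baseChange (ρbar.ρ σ) k'
  rw [← h3, h2, LinearEquiv.charpoly_conj]

end Residual

section Univ

variable {𝒪 : Type} [CommRing 𝒪] [IsDomain 𝒪] [IsDiscreteValuationRing 𝒪]
  [IsAdicComplete (maximalIdeal 𝒪) 𝒪]
  {ρbar : ResidualGaloisRep (ResidueField 𝒪)}
  {𝒟₀ 𝒟Q : ∀ ⦃A : Type⦄ [CommRing A] [IsLocalRing A] [Algebra 𝒪 A], GaloisRepAdic A → Prop}
  (D₀ : GaloisRep.DeformationRingData 𝒪 ρbar 𝒟₀) (DQ : GaloisRep.DeformationRingData 𝒪 ρbar 𝒟Q)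

/-- **the Taylor–Wiles units of `R_Q`** (frozen S56 shape of the Taylor–Wiles primes, with the
places `P_q`, Frobenius elements `φ_q`, tame generators `τ_q` and the labelling `α_q, β_q` of the
Frobenius eigenvalues as INPUTS): units `g_q = χ_{q,0}(τ_q)` of `R_Q` with
`inertiaIdeal ρ_Q Q = (g_q − 1 : q ∈ Q)`. -/
theorem exists_tw_units_univ {p : ℕ} (hp : p.Prime) (Q : Finset ℕ)
    (hdetQ : DQ.ρ.DetIsCyclotomic p)
    (hQ : ∀ q ∈ Q, q.Prime ∧ p ≠ q ∧ p ∣ q - 1)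
    (hunr : ∀ q ∈ Q, ρbar.IsUnramifiedAt q)
    (P : ℕ → ValuationSubring Qb) (hP : ∀ q ∈ Q, (P q).LiesOverPrime q)
    (φ : ℕ → GQ) (hφ : ∀ q ∈ Q, (P q).IsFrobeniusAt (φ q) q)
    (α β : ℕ → ResidueField 𝒪)
    (hαβ : ∀ q ∈ Q, α q ≠ β q ∧
      LinearMap.charpoly (ρbar.ρ (φ q)) = (X - C (α q)) * (X - C (β q)))
    (τ : ℕ → GQ) (hτ : ∀ q ∈ Q, IsTameGenerator (P q) p (τ q)) :
    ∃ g : ℕ → (DQ.R)ˣ,
      (∀ q (hq : q ∈ Q), ∃ (B : Module.Basis (Fin 2) DQ.R DQ.ρ.V)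
        (χ : Fin 2 → (P q).decompositionSubgroup ℚ →* (DQ.R)ˣ),
        (∀ (i : Fin 2) (σ : (P q).decompositionSubgroup ℚ),
          DQ.ρ.ρ (σ : GQ) (B i) = (χ i σ : DQ.R) • B i) ∧
        residue DQ.R (χ 0 ⟨φ q, (hφ q hq).mem_decompositionSubgroup⟩ : DQ.R) =
          ResidueField.map (algebraMap 𝒪 DQ.R) (α q) ∧
        residue DQ.R (χ 1 ⟨φ q, (hφ q hq).mem_decompositionSubgroup⟩ : DQ.R) =
          ResidueField.map (algebraMap 𝒪 DQ.R) (β q) ∧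
        g q = χ 0 ⟨τ q, inertia_le_decomposition (P q) (hτ q hq).mem_inertia⟩) ∧
      (∀ q ∈ Q, (g q : DQ.R) - 1 ∈ maximalIdeal DQ.R) ∧
      (∀ q ∈ Q, ∀ a m : ℕ, q = p ^ a * m + 1 → ¬ p ∣ m → g q ^ p ^ a = 1) ∧
      (∀ q ∈ Q, inertiaIdeal DQ.ρ {q} = Ideal.span {(g q : DQ.R) - 1}) ∧
      inertiaIdeal DQ.ρ Q = Ideal.span ((fun q => (g q : DQ.R) - 1) '' (Q : Set ℕ)) := by
  set ψ := ResidueField.map (algebraMap 𝒪 DQ.R) with hψ
  -- lifts of the eigenvalues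
  have hlift : ∀ x : ResidueField 𝒪, ∃ a : DQ.R, residue DQ.R a = ψ x := fun x =>
    residue_surjective (ψ x)
  choose lift hlift' using hlift
  set a₀ : ℕ → DQ.R := fun q => lift (α q) with ha₀
  set b₀ : ℕ → DQ.R := fun q => lift (β q) with hb₀
  have hresQ : ∀ q ∈ Q, DQ.ρ.residual.IsUnramifiedAt q := fun q hq =>
    isUnramifiedAt_of_isEquiv_baseChangeAlong ψ ρbar DQ.ρ.residual DQ.residual_isEquiv (hunr q hq)
  have hl : ∀ q ∈ Q,
      LinearMap.trace DQ.R DQ.ρ.V (DQ.ρ.ρ (φ q)) - (a₀ q + b₀ q) ∈ maximalIdeal DQ.R ∧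
      LinearMap.det (DQ.ρ.ρ (φ q)) - a₀ q * b₀ q ∈ maximalIdeal DQ.R ∧
      IsUnit (a₀ q - b₀ q) := by
    intro q hq
    obtain ⟨hne, hc⟩ := hαβ q hq
    have h1 : LinearMap.charpoly (DQ.ρ.residual.ρ (φ q)) =
        (X - C (residue DQ.R (a₀ q))) * (X - C (residue DQ.R (b₀ q))) := by
      rw [charpoly_of_isEquiv_baseChangeAlong ψ ρbar DQ.ρ.residual DQ.residual_isEquiv, hc,
        Polynomial.map_mul, Polynomial.map_sub, Polynomial.map_sub, Polynomial.map_X,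
        Polynomial.map_C, Polynomial.map_C, ha₀, hb₀, hlift', hlift']
    have hne' : residue DQ.R (a₀ q) ≠ residue DQ.R (b₀ q) := by
      rw [ha₀, hb₀, hlift', hlift']
      exact fun h => hne (ψ.injective h)
    exact lifts_of_charpoly DQ.ρ (φ q) (a₀ q) (b₀ q) hne' h1
  obtain ⟨g, hg1, hg2, hg3, hg4, hg5⟩ := exists_tw_units DQ.ρ hp hdetQ Q
    (fun q hq => ⟨(hQ q hq).1, (hQ q hq).2.1,
      natCast_sub_one_mem hdetQ.1 (hQ q hq).1.pos (hQ q hq).2.2⟩)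
    hresQ P hP φ hφ a₀ b₀ (fun q hq => (hl q hq).1) (fun q hq => (hl q hq).2.1)
    (fun q hq => (hl q hq).2.2) τ hτ
  refine ⟨g, fun q hq => ?_, hg2, hg3, hg4, hg5⟩
  obtain ⟨B, χ, hχ, h0, h1, hgq⟩ := hg1 q hq
  refine ⟨B, χ, hχ, ?_, ?_, hgq⟩
  · have h2 := (residue_eq_zero_iff _).mpr h0
    rw [map_sub, sub_eq_zero] at h2
    rw [h2, ha₀, hlift']
  · have h2 := (residue_eq_zero_iff _).mpr h1
    rw [map_sub, sub_eq_zero] at h2
    rw [h2, hb₀, hlift']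

/-- **`π : R_Q ↠ R_∅` with `ker π = (g_q − 1 : q ∈ Q)`** — the input
`β : R_Q ↠ R, ker β = span (g_j − 1)` of the abstract Taylor–Wiles level (`GE6`), in the frozen
vocabulary; data `P_q, φ_q, τ_q, α_q, β_q` as inputs. -/
theorem exists_augQuot_units_of_data {p : ℕ} (hp : p.Prime)
    (h𝒟Q : GaloisRep.IsDeformationCondition 𝒪 𝒟Q) (Q : Finset ℕ)
    (hdetQ : DQ.ρ.DetIsCyclotomic p)
    (hQ : ∀ q ∈ Q, q.Prime ∧ p ≠ q ∧ p ∣ q - 1)
    (hunr : ∀ q ∈ Q, ρbar.IsUnramifiedAt q)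
    (h0Q : 𝒟Q D₀.ρ) (h0unr : ∀ q ∈ Q, D₀.ρ.IsUnramifiedAt q)
    (h0 : ∀ (R' : Type) [CommRing R'] [IsLocalRing R'] [Algebra 𝒪 R'] (ρ : GaloisRepAdic R'),
      𝒟Q ρ → (∀ q ∈ Q, ρ.IsUnramifiedAt q) → 𝒟₀ ρ)
    (P : ℕ → ValuationSubring Qb) (hP : ∀ q ∈ Q, (P q).LiesOverPrime q)
    (φ : ℕ → GQ) (hφ : ∀ q ∈ Q, (P q).IsFrobeniusAt (φ q) q)
    (α β : ℕ → ResidueField 𝒪)
    (hαβ : ∀ q ∈ Q, α q ≠ β q ∧
      LinearMap.charpoly (ρbar.ρ (φ q)) = (X - C (α q)) * (X - C (β q)))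
    (τ : ℕ → GQ) (hτ : ∀ q ∈ Q, IsTameGenerator (P q) p (τ q)) :
    ∃ (π : DQ.R →ₐ[𝒪] D₀.R) (hπ : IsLocalHom (π : DQ.R →+* D₀.R)) (g : ℕ → (DQ.R)ˣ),
      Surjective π ∧
      RingHom.ker (π : DQ.R →+* D₀.R) =
        Ideal.span ((fun q => (g q : DQ.R) - 1) '' (Q : Set ℕ)) ∧
      (DQ.ρ.baseChangeAlong (π : DQ.R →+* D₀.R) hπ).IsEquiv D₀.ρ ∧
      (∀ q ∈ Q, (g q : DQ.R) - 1 ∈ maximalIdeal DQ.R) ∧
      (∀ q ∈ Q, ∀ a m : ℕ, q = p ^ a * m + 1 → ¬ p ∣ m → g q ^ p ^ a = 1) ∧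
      (∀ q ∈ Q, π (g q : DQ.R) = 1) ∧
      (∀ q (hq : q ∈ Q), ∃ (B : Module.Basis (Fin 2) DQ.R DQ.ρ.V)
        (χ : Fin 2 → (P q).decompositionSubgroup ℚ →* (DQ.R)ˣ),
        (∀ (i : Fin 2) (σ : (P q).decompositionSubgroup ℚ),
          DQ.ρ.ρ (σ : GQ) (B i) = (χ i σ : DQ.R) • B i) ∧
        residue DQ.R (χ 0 ⟨φ q, (hφ q hq).mem_decompositionSubgroup⟩ : DQ.R) =
          ResidueField.map (algebraMap 𝒪 DQ.R) (α q) ∧
        residue DQ.R (χ 1 ⟨φ q, (hφ q hq).mem_decompositionSubgroup⟩ : DQ.R) =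
          ResidueField.map (algebraMap 𝒪 DQ.R) (β q) ∧
        g q = χ 0 ⟨τ q, inertia_le_decomposition (P q) (hτ q hq).mem_inertia⟩) := by
  obtain ⟨g, hg1, hg2, hg3, -, hg5⟩ :=
    exists_tw_units_univ DQ hp Q hdetQ hQ hunr P hP φ hφ α β hαβ τ hτ
  have hresQ : ∀ q ∈ Q, DQ.ρ.residual.IsUnramifiedAt q := fun q hq =>
    isUnramifiedAt_of_isEquiv_baseChangeAlong _ ρbar DQ.ρ.residual DQ.residual_isEquiv (hunr q hq)
  obtain ⟨π, hπ, hπs, hπk, heπ⟩ :=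
    exists_augQuot_inertia_of_isDeformationCondition D₀ DQ h𝒟Q Q hresQ h0Q h0unr h0
  refine ⟨π, hπ, g, hπs, hπk.trans hg5, heπ, hg2, hg3, fun q hq => ?_, hg1⟩
  have h1 : (g q : DQ.R) - 1 ∈ RingHom.ker (π : DQ.R →+* D₀.R) := by
    rw [hπk, hg5]
    exact Ideal.subset_span ⟨q, hq, rfl⟩
  have h2 : π ((g q : DQ.R) - 1) = 0 := h1
  rw [map_sub, map_one, sub_eq_zero] at h2
  exact h2

/-- the same in the frozen S56 indexing `qv : Fin r → ℕ` (injective), binder-free in the local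
data (places, Frobenius elements, tame generators and eigenvalue labels are chosen): units
`g : Fin r → R_Qˣ` with `ker π = (g_j − 1 : j)`, `g_j ^ p ^ a = 1` for `qv j = p ^ a m + 1`,
`p ∤ m`. -/
theorem exists_augQuot_units_fin {p : ℕ} [Fact p.Prime]
    (h𝒟Q : GaloisRep.IsDeformationCondition 𝒪 𝒟Q) {r : ℕ} (qv : Fin r → ℕ)
    (hdetQ : DQ.ρ.DetIsCyclotomic p)
    (hQ : ∀ j, (qv j).Prime ∧ p ≠ qv j ∧ p ∣ qv j - 1)
    (hunr : ∀ j, ρbar.IsUnramifiedAt (qv j))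
    (hTW : ∀ j, ∀ P : ValuationSubring Qb, P.LiesOverPrime (qv j) →
      ∀ φ : GQ, P.IsFrobeniusAt φ (qv j) →
        ∃ α β : ResidueField 𝒪, α ≠ β ∧
          LinearMap.charpoly (ρbar.ρ φ) = (X - C α) * (X - C β))
    (h0Q : 𝒟Q D₀.ρ) (h0unr : ∀ j, D₀.ρ.IsUnramifiedAt (qv j))
    (h0 : ∀ (R' : Type) [CommRing R'] [IsLocalRing R'] [Algebra 𝒪 R'] (ρ : GaloisRepAdic R'),
      𝒟Q ρ → (∀ j, ρ.IsUnramifiedAt (qv j)) → 𝒟₀ ρ) :
    ∃ (π : DQ.R →ₐ[𝒪] D₀.R) (hπ : IsLocalHom (π : DQ.R →+* D₀.R)) (g : Fin r → (DQ.R)ˣ),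
      Surjective π ∧
      RingHom.ker (π : DQ.R →+* D₀.R) =
        Ideal.span (Set.range fun j => (g j : DQ.R) - 1) ∧
      (DQ.ρ.baseChangeAlong (π : DQ.R →+* D₀.R) hπ).IsEquiv D₀.ρ ∧
      (∀ j, (g j : DQ.R) - 1 ∈ maximalIdeal DQ.R) ∧
      (∀ j, ∀ a m : ℕ, qv j = p ^ a * m + 1 → ¬ p ∣ m → g j ^ p ^ a = 1) ∧
      (∀ j, π (g j : DQ.R) = 1) := by
  classical
  have hp : p.Prime := Fact.out
  set Q : Finset ℕ := Finset.univ.image qv with hQdef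
  have hmem : ∀ q ∈ Q, ∃ j, qv j = q := fun q hq => by
    obtain ⟨j, -, hj⟩ := Finset.mem_image.mp hq
    exact ⟨j, hj⟩
  have hmem' : ∀ j, qv j ∈ Q := fun j => Finset.mem_image.mpr ⟨j, Finset.mem_univ j, rfl⟩
  -- the local data
  have hdata : ∀ q : ℕ, ∃ (P : ValuationSubring Qb) (φ τ : GQ) (α β : ResidueField 𝒪),
      q ∈ Q → P.LiesOverPrime q ∧ P.IsFrobeniusAt φ q ∧ IsTameGenerator P p τ ∧
        α ≠ β ∧ LinearMap.charpoly (ρbar.ρ φ) = (X - C α) * (X - C β) := by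
    intro q
    by_cases hq : q ∈ Q
    · obtain ⟨j, rfl⟩ := hmem q hq
      obtain ⟨hqp, hpq, -⟩ := hQ j
      obtain ⟨P, hP⟩ := Fermat.Agent.Common_helper32.exists_liesOverPrime (qv j) hqp
      obtain ⟨φ, hφ⟩ := Fermat.Agent.S54_helper34.exists_isFrobeniusAt P (qv j) hqp hP
      obtain ⟨τ, hτ⟩ := exists_isTameGenerator P hqp hP p hpq
      obtain ⟨α, β, hne, hc⟩ := hTW j P hP φ hφ
      exact ⟨P, φ, τ, α, β, fun _ => ⟨hP, hφ, hτ, hne, hc⟩⟩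
    · exact ⟨⊤, 1, 1, 0, 0, fun h => absurd h hq⟩
  choose P φ τ α β hd using hdata
  obtain ⟨π, hπ, g, hπs, hπk, heπ, hg2, hg3, hg4, -⟩ :=
    exists_augQuot_units_of_data D₀ DQ hp h𝒟Q Q hdetQ
      (fun q hq => by obtain ⟨j, rfl⟩ := hmem q hq; exact hQ j)
      (fun q hq => by obtain ⟨j, rfl⟩ := hmem q hq; exact hunr j)
      h0Q (fun q hq => by obtain ⟨j, rfl⟩ := hmem q hq; exact h0unr j)
      (fun R' _ _ _ ρ h1 h2 => h0 R' ρ h1 fun j => h2 (qv j) (hmem' j))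
      P (fun q hq => (hd q hq).1) φ (fun q hq => (hd q hq).2.1) α β
      (fun q hq => ⟨(hd q hq).2.2.2.1, (hd q hq).2.2.2.2⟩) τ (fun q hq => (hd q hq).2.2.1)
  refine ⟨π, hπ, fun j => g (qv j), hπs, ?_, heπ, fun j => hg2 _ (hmem' j),
    fun j => hg3 _ (hmem' j), fun j => hg4 _ (hmem' j)⟩
  rw [hπk]
  congr 1
  ext x
  constructor
  · rintro ⟨q, hq, rfl⟩
    obtain ⟨j, rfl⟩ := hmem q (Finset.mem_coe.mp hq)
    exact ⟨j, rfl⟩
  · rintro ⟨j, rfl⟩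
    exact ⟨qv j, Finset.mem_coe.mpr (hmem' j), rfl⟩

end Univ

end Fermat.Agent.GE2.DeltaQ
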