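/-
GATE-E (S59, pre-work) / E2 residue, node GE2-DELTAQ-INST (helper22).

**`R_Q ↠ R_∅` with kernel `(g_j − 1)` for the frozen S56-shaped deformation problems.**

Instances of `GE2/DeltaQ.exists_augQuot_units_fin` for the two deformation problems of the frozen
S56 / of the engine contract `GE/Graph/RTStmt` (`condFL`, `condSO`):

  `𝒟^c_T ρ := c-condition 𝒪 p T ρ ∧ ∀ q ∈ Smin, q.Prime → q ≠ p → ρ.IsUnipotentOnInertiaAt q`,
  `c ∈ {flat, strictOrdinary}`,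

`D₀` of type `𝒟^c_{T₀}`, `DQ` of type `𝒟^c_{TQ}` with `T₀ ⊆ TQ ⊆ T₀ ∪ {qv j}`, `qv j ∉ T₀`
(e.g. `T₀ = Smin ∪ ∅` or `Smin`, `TQ = Smin ∪ Finset.univ.image qv` : the frozen S56 spelling).

* `exists_augQuot_units_family` : the generic form (a family `𝒟 : Finset ℕ → DefCond` with the
  four formal properties used);
* `exists_augQuot_units_FL`, `exists_augQuot_units_SO` : flat / strict-ordinary;
* `exists_augQuot_units_FL_S56`, `exists_augQuot_units_SO_S56` : with the hypotheses on the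
  Taylor–Wiles primes in the frozen S56 spelling (`qv i ∉ S`, `p ^ (n + 1) ∣ qv i - 1`, `hmin`).
-/
import Mathlib
import Fermat.Agent.GE2.DeltaQ
import Fermat.Agent.GB.Def.Cond.FL
import Fermat.Agent.GB.Def.Cond.SO

set_option autoImplicit false
set_option linter.unusedSectionVars false

noncomputable section

namespace Fermat.Agent.GE2.DeltaQInst

open IsLocalRing Function Polynomial GaloisRep
open Fermat.Agent.GE2.DeltaQ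

/-- `ℚ̄`. -/
local notation "Qb" => AlgebraicClosure ℚ
/-- `G_ℚ`. -/
local notation "GQ" => (AlgebraicClosure ℚ ≃ₐ[ℚ] AlgebraicClosure ℚ)

variable {𝒪 : Type} [CommRing 𝒪] [IsDomain 𝒪] [IsDiscreteValuationRing 𝒪]
  [IsAdicComplete (maximalIdeal 𝒪) 𝒪]
  {ρbar : ResidualGaloisRep (ResidueField 𝒪)}

/-- `p ∣ q − 1` excludes `q = p`. -/
theorem ne_of_dvd_sub_one {p q : ℕ} (hp : p.Prime) (h : p ∣ q - 1) (hq : q.Prime) : p ≠ q := by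
  rintro rfl
  have h1 : p - 1 < p := Nat.sub_lt hp.pos one_pos
  have h2 : 0 < p - 1 := Nat.sub_pos_of_lt hp.one_lt
  exact absurd (Nat.le_of_dvd h2 h) (not_le.mpr h1)

/-- **generic form**: a family of deformation problems `𝒟 T` indexed by the set `T` of primes of
allowed ramification. -/
theorem exists_augQuot_units_family {p : ℕ} [Fact p.Prime]
    (𝒟 : Finset ℕ → ∀ ⦃A : Type⦄ [CommRing A] [IsLocalRing A] [Algebra 𝒪 A],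
      GaloisRepAdic A → Prop)
    (h𝒟 : ∀ T, IsDeformationCondition 𝒪 (𝒟 T))
    (hdet : ∀ (T : Finset ℕ) (A : Type) [CommRing A] [IsLocalRing A] [Algebra 𝒪 A]
      (ρ : GaloisRepAdic A), 𝒟 T ρ → ρ.DetIsCyclotomic p)
    (hunrOut : ∀ (T : Finset ℕ) (A : Type) [CommRing A] [IsLocalRing A] [Algebra 𝒪 A]
      (ρ : GaloisRepAdic A), 𝒟 T ρ → ∀ q : ℕ, q.Prime → q ∉ T → ρ.IsUnramifiedAt q)
    (hmono : ∀ (T T' : Finset ℕ), T ⊆ T' → ∀ (A : Type) [CommRing A] [IsLocalRing A]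
      [Algebra 𝒪 A] (ρ : GaloisRepAdic A), 𝒟 T ρ → 𝒟 T' ρ)
    (hdesc : ∀ (T T' : Finset ℕ), T ⊆ T' → ∀ (A : Type) [CommRing A] [IsLocalRing A]
      [Algebra 𝒪 A] (ρ : GaloisRepAdic A), 𝒟 T' ρ →
        (∀ q ∈ T', q ∉ T → ρ.IsUnramifiedAt q) → 𝒟 T ρ)
    (T₀ TQ : Finset ℕ) {r : ℕ} (qv : Fin r → ℕ)
    (hsub : T₀ ⊆ TQ) (hTQ : ∀ q ∈ TQ, q ∈ T₀ ∨ ∃ j, qv j = q) (hqvT : ∀ j, qv j ∉ T₀)
    (D₀ : DeformationRingData 𝒪 ρbar (𝒟 T₀)) (DQ : DeformationRingData 𝒪 ρbar (𝒟 TQ))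
    (hQ : ∀ j, (qv j).Prime ∧ p ∣ qv j - 1)
    (hunr : ∀ j, ρbar.IsUnramifiedAt (qv j))
    (hTW : ∀ j, ∀ P : ValuationSubring Qb, P.LiesOverPrime (qv j) →
      ∀ φ : GQ, P.IsFrobeniusAt φ (qv j) →
        ∃ α β : ResidueField 𝒪, α ≠ β ∧
          LinearMap.charpoly (ρbar.ρ φ) = (X - C α) * (X - C β)) :
    ∃ (π : DQ.R →ₐ[𝒪] D₀.R) (hπ : IsLocalHom (π : DQ.R →+* D₀.R)) (g : Fin r → (DQ.R)ˣ),
      Surjective π ∧
      RingHom.ker (π : DQ.R →+* D₀.R) =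
        Ideal.span (Set.range fun j => (g j : DQ.R) - 1) ∧
      (DQ.ρ.baseChangeAlong (π : DQ.R →+* D₀.R) hπ).IsEquiv D₀.ρ ∧
      (∀ j, (g j : DQ.R) - 1 ∈ maximalIdeal DQ.R) ∧
      (∀ j, ∀ a m : ℕ, qv j = p ^ a * m + 1 → ¬ p ∣ m → g j ^ p ^ a = 1) ∧
      (∀ j, π (g j : DQ.R) = 1) := by
  have hp : p.Prime := Fact.out
  refine exists_augQuot_units_fin D₀ DQ (h𝒟 TQ) qv (hdet TQ DQ.R DQ.ρ DQ.isOfType)
    (fun j => ⟨(hQ j).1, ne_of_dvd_sub_one hp (hQ j).2 (hQ j).1, (hQ j).2⟩) hunr hTW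
    (hmono T₀ TQ hsub D₀.R D₀.ρ D₀.isOfType)
    (fun j => hunrOut T₀ D₀.R D₀.ρ D₀.isOfType (qv j) (hQ j).1 (hqvT j))
    (fun R' _ _ _ ρ h1 h2 => hdesc T₀ TQ hsub R' ρ h1 fun q hq hq0 => ?_)
  rcases hTQ q hq with h | ⟨j, rfl⟩
  · exact absurd h hq0
  · exact h2 j

section FL

variable [Finite (ResidueField 𝒪)] {p : ℕ} [Fact p.Prime]

/-- **flat case.** -/
theorem exists_augQuot_units_FL (Smin T₀ TQ : Finset ℕ) {r : ℕ} (qv : Fin r → ℕ)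
    (hsub : T₀ ⊆ TQ) (hTQ : ∀ q ∈ TQ, q ∈ T₀ ∨ ∃ j, qv j = q) (hqvT : ∀ j, qv j ∉ T₀)
    (D₀ : DeformationRingData 𝒪 ρbar (fun _A _ _ _ ρ =>
      GaloisRep.flatCondition 𝒪 p T₀ ρ ∧
        ∀ q ∈ Smin, q.Prime → q ≠ p → ρ.IsUnipotentOnInertiaAt q))
    (DQ : DeformationRingData 𝒪 ρbar (fun _A _ _ _ ρ =>
      GaloisRep.flatCondition 𝒪 p TQ ρ ∧
        ∀ q ∈ Smin, q.Prime → q ≠ p → ρ.IsUnipotentOnInertiaAt q))
    (hQ : ∀ j, (qv j).Prime ∧ p ∣ qv j - 1)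
    (hunr : ∀ j, ρbar.IsUnramifiedAt (qv j))
    (hTW : ∀ j, ∀ P : ValuationSubring Qb, P.LiesOverPrime (qv j) →
      ∀ φ : GQ, P.IsFrobeniusAt φ (qv j) →
        ∃ α β : ResidueField 𝒪, α ≠ β ∧
          LinearMap.charpoly (ρbar.ρ φ) = (X - C α) * (X - C β)) :
    ∃ (π : DQ.R →ₐ[𝒪] D₀.R) (hπ : IsLocalHom (π : DQ.R →+* D₀.R)) (g : Fin r → (DQ.R)ˣ),
      Surjective π ∧
      RingHom.ker (π : DQ.R →+* D₀.R) =
        Ideal.span (Set.range fun j => (g j : DQ.R) - 1) ∧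
      (DQ.ρ.baseChangeAlong (π : DQ.R →+* D₀.R) hπ).IsEquiv D₀.ρ ∧
      (∀ j, (g j : DQ.R) - 1 ∈ maximalIdeal DQ.R) ∧
      (∀ j, ∀ a m : ℕ, qv j = p ^ a * m + 1 → ¬ p ∣ m → g j ^ p ^ a = 1) ∧
      (∀ j, π (g j : DQ.R) = 1) :=
  exists_augQuot_units_family (p := p)
    (fun T _A _ _ _ ρ => GaloisRep.flatCondition 𝒪 p T ρ ∧
      ∀ q ∈ Smin, q.Prime → q ≠ p → ρ.IsUnipotentOnInertiaAt q)
    (fun T => Fermat.Agent.GB.Def.Cond.isDeformationCondition_FL 𝒪 p T Smin)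
    (fun _ _ _ _ _ _ h => h.1.1)
    (fun _ _ _ _ _ _ h q hq hqT => h.1.2.2 q hq hqT)
    (fun _ _ hTT _ _ _ _ _ h =>
      ⟨⟨h.1.1, h.1.2.1, fun q hq hqT => h.1.2.2 q hq fun hmem => hqT (hTT hmem)⟩, h.2⟩)
    (fun T T' _ _ _ _ _ ρ h hu =>
      ⟨⟨h.1.1, h.1.2.1, fun q hq hqT => by
        by_cases hq' : q ∈ T'
        · exact hu q hq' hqT
        · exact h.1.2.2 q hq hq'⟩, h.2⟩)
    T₀ TQ qv hsub hTQ hqvT D₀ DQ hQ hunr hTW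

/-- **flat case, frozen S56 spelling** of the Taylor–Wiles data: `TQ = Smin ∪ univ.image qv`,
`T₀ = Smin ∪ ∅`. -/
theorem exists_augQuot_units_FL_S56 (S Smin : Finset ℕ) (hpSmin : p ∈ Smin) (hSmin : Smin ⊆ S)
    (hmin : ∀ q : ℕ, q.Prime → q ≠ p → (q ∈ Smin ↔ ¬ ρbar.IsUnramifiedAt q))
    {r : ℕ} (n : ℕ) (qv : Fin r → ℕ)
    (hqv : ∀ i, (qv i).Prime ∧ qv i ∉ S ∧ p ^ (n + 1) ∣ qv i - 1)
    (hTW : ∀ i, ∀ P : ValuationSubring Qb, P.LiesOverPrime (qv i) →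
      ∀ φ : GQ, P.IsFrobeniusAt φ (qv i) →
        ∃ α β : ResidueField 𝒪, α ≠ β ∧
          LinearMap.charpoly (ρbar.ρ φ) = (X - C α) * (X - C β))
    (D₀ : DeformationRingData 𝒪 ρbar (fun _A _ _ _ ρ =>
      GaloisRep.flatCondition 𝒪 p (Smin ∪ ∅) ρ ∧
        ∀ q ∈ Smin, q.Prime → q ≠ p → ρ.IsUnipotentOnInertiaAt q))
    (DQ : DeformationRingData 𝒪 ρbar (fun _A _ _ _ ρ =>
      GaloisRep.flatCondition 𝒪 p (Smin ∪ Finset.univ.image qv) ρ ∧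
        ∀ q ∈ Smin, q.Prime → q ≠ p → ρ.IsUnipotentOnInertiaAt q)) :
    ∃ (π : DQ.R →ₐ[𝒪] D₀.R) (hπ : IsLocalHom (π : DQ.R →+* D₀.R)) (g : Fin r → (DQ.R)ˣ),
      Surjective π ∧
      RingHom.ker (π : DQ.R →+* D₀.R) =
        Ideal.span (Set.range fun j => (g j : DQ.R) - 1) ∧
      (DQ.ρ.baseChangeAlong (π : DQ.R →+* D₀.R) hπ).IsEquiv D₀.ρ ∧
      (∀ j, (g j : DQ.R) - 1 ∈ maximalIdeal DQ.R) ∧
      (∀ j, ∀ a m : ℕ, qv j = p ^ a * m + 1 → ¬ p ∣ m → g j ^ p ^ a = 1) ∧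
      (∀ j, π (g j : DQ.R) = 1) := by
  classical
  have hp : p.Prime := Fact.out
  have hdvd : ∀ j, p ∣ qv j - 1 := fun j =>
    dvd_trans (dvd_pow_self p (Nat.succ_ne_zero n)) (hqv j).2.2
  have hnS : ∀ j, qv j ∉ Smin := fun j h => (hqv j).2.1 (hSmin h)
  have hne : ∀ j, qv j ≠ p := fun j h => hnS j (h ▸ hpSmin)
  refine exists_augQuot_units_FL Smin (Smin ∪ ∅) (Smin ∪ Finset.univ.image qv) qv ?_ ?_ ?_ D₀ DQ
    (fun j => ⟨(hqv j).1, hdvd j⟩) (fun j => ?_) hTW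
  · exact Finset.union_subset_union_right (Finset.empty_subset _)
  · intro q hq
    rcases Finset.mem_union.mp hq with h | h
    · exact Or.inl (Finset.mem_union_left _ h)
    · obtain ⟨j, -, hj⟩ := Finset.mem_image.mp h
      exact Or.inr ⟨j, hj⟩
  · intro j h
    rcases Finset.mem_union.mp h with h | h
    · exact hnS j h
    · exact absurd h (Finset.notMem_empty _)
  · by_contra hram
    exact hnS j ((hmin (qv j) (hqv j).1 (hne j)).mpr hram)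

end FL

section SO

variable {p : ℕ} [Fact p.Prime]

/-- **strict-ordinary case** (`p` odd). -/
theorem exists_augQuot_units_SO (hp2 : p ≠ 2) (Smin T₀ TQ : Finset ℕ) {r : ℕ} (qv : Fin r → ℕ)
    (hsub : T₀ ⊆ TQ) (hTQ : ∀ q ∈ TQ, q ∈ T₀ ∨ ∃ j, qv j = q) (hqvT : ∀ j, qv j ∉ T₀)
    (D₀ : DeformationRingData 𝒪 ρbar (fun _A _ _ _ ρ =>
      GaloisRep.strictOrdinaryCondition 𝒪 p T₀ ρ ∧
        ∀ q ∈ Smin, q.Prime → q ≠ p → ρ.IsUnipotentOnInertiaAt q))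
    (DQ : DeformationRingData 𝒪 ρbar (fun _A _ _ _ ρ =>
      GaloisRep.strictOrdinaryCondition 𝒪 p TQ ρ ∧
        ∀ q ∈ Smin, q.Prime → q ≠ p → ρ.IsUnipotentOnInertiaAt q))
    (hQ : ∀ j, (qv j).Prime ∧ p ∣ qv j - 1)
    (hunr : ∀ j, ρbar.IsUnramifiedAt (qv j))
    (hTW : ∀ j, ∀ P : ValuationSubring Qb, P.LiesOverPrime (qv j) →
      ∀ φ : GQ, P.IsFrobeniusAt φ (qv j) →
        ∃ α β : ResidueField 𝒪, α ≠ β ∧
          LinearMap.charpoly (ρbar.ρ φ) = (X - C α) * (X - C β)) :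
    ∃ (π : DQ.R →ₐ[𝒪] D₀.R) (hπ : IsLocalHom (π : DQ.R →+* D₀.R)) (g : Fin r → (DQ.R)ˣ),
      Surjective π ∧
      RingHom.ker (π : DQ.R →+* D₀.R) =
        Ideal.span (Set.range fun j => (g j : DQ.R) - 1) ∧
      (DQ.ρ.baseChangeAlong (π : DQ.R →+* D₀.R) hπ).IsEquiv D₀.ρ ∧
      (∀ j, (g j : DQ.R) - 1 ∈ maximalIdeal DQ.R) ∧
      (∀ j, ∀ a m : ℕ, qv j = p ^ a * m + 1 → ¬ p ∣ m → g j ^ p ^ a = 1) ∧
      (∀ j, π (g j : DQ.R) = 1) :=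
  exists_augQuot_units_family (p := p)
    (fun T _A _ _ _ ρ => GaloisRep.strictOrdinaryCondition 𝒪 p T ρ ∧
      ∀ q ∈ Smin, q.Prime → q ≠ p → ρ.IsUnipotentOnInertiaAt q)
    (fun T => Fermat.Agent.GB.Def.Cond.isDeformationCondition_SO 𝒪 p hp2 T Smin)
    (fun _ _ _ _ _ _ h => h.1.1)
    (fun _ _ _ _ _ _ h q hq hqT => h.1.2.2 q hq hqT)
    (fun _ _ hTT _ _ _ _ _ h =>
      ⟨⟨h.1.1, h.1.2.1, fun q hq hqT => h.1.2.2 q hq fun hmem => hqT (hTT hmem)⟩, h.2⟩)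
    (fun T T' _ _ _ _ _ ρ h hu =>
      ⟨⟨h.1.1, h.1.2.1, fun q hq hqT => by
        by_cases hq' : q ∈ T'
        · exact hu q hq' hqT
        · exact h.1.2.2 q hq hq'⟩, h.2⟩)
    T₀ TQ qv hsub hTQ hqvT D₀ DQ hQ hunr hTW

/-- **strict-ordinary case, frozen S56 spelling.** -/
theorem exists_augQuot_units_SO_S56 (hp2 : p ≠ 2) (S Smin : Finset ℕ) (hpSmin : p ∈ Smin)
    (hSmin : Smin ⊆ S)
    (hmin : ∀ q : ℕ, q.Prime → q ≠ p → (q ∈ Smin ↔ ¬ ρbar.IsUnramifiedAt q))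
    {r : ℕ} (n : ℕ) (qv : Fin r → ℕ)
    (hqv : ∀ i, (qv i).Prime ∧ qv i ∉ S ∧ p ^ (n + 1) ∣ qv i - 1)
    (hTW : ∀ i, ∀ P : ValuationSubring Qb, P.LiesOverPrime (qv i) →
      ∀ φ : GQ, P.IsFrobeniusAt φ (qv i) →
        ∃ α β : ResidueField 𝒪, α ≠ β ∧
          LinearMap.charpoly (ρbar.ρ φ) = (X - C α) * (X - C β))
    (D₀ : DeformationRingData 𝒪 ρbar (fun _A _ _ _ ρ =>
      GaloisRep.strictOrdinaryCondition 𝒪 p (Smin ∪ ∅) ρ ∧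
        ∀ q ∈ Smin, q.Prime → q ≠ p → ρ.IsUnipotentOnInertiaAt q))
    (DQ : DeformationRingData 𝒪 ρbar (fun _A _ _ _ ρ =>
      GaloisRep.strictOrdinaryCondition 𝒪 p (Smin ∪ Finset.univ.image qv) ρ ∧
        ∀ q ∈ Smin, q.Prime → q ≠ p → ρ.IsUnipotentOnInertiaAt q)) :
    ∃ (π : DQ.R →ₐ[𝒪] D₀.R) (hπ : IsLocalHom (π : DQ.R →+* D₀.R)) (g : Fin r → (DQ.R)ˣ),
      Surjective π ∧
      RingHom.ker (π : DQ.R →+* D₀.R) =
        Ideal.span (Set.range fun j => (g j : DQ.R) - 1) ∧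
      (DQ.ρ.baseChangeAlong (π : DQ.R →+* D₀.R) hπ).IsEquiv D₀.ρ ∧
      (∀ j, (g j : DQ.R) - 1 ∈ maximalIdeal DQ.R) ∧
      (∀ j, ∀ a m : ℕ, qv j = p ^ a * m + 1 → ¬ p ∣ m → g j ^ p ^ a = 1) ∧
      (∀ j, π (g j : DQ.R) = 1) := by
  classical
  have hp : p.Prime := Fact.out
  have hdvd : ∀ j, p ∣ qv j - 1 := fun j =>
    dvd_trans (dvd_pow_self p (Nat.succ_ne_zero n)) (hqv j).2.2
  have hnS : ∀ j, qv j ∉ Smin := fun j h => (hqv j).2.1 (hSmin h)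
  have hne : ∀ j, qv j ≠ p := fun j h => hnS j (h ▸ hpSmin)
  refine exists_augQuot_units_SO hp2 Smin (Smin ∪ ∅) (Smin ∪ Finset.univ.image qv) qv ?_ ?_ ?_
    D₀ DQ (fun j => ⟨(hqv j).1, hdvd j⟩) (fun j => ?_) hTW
  · exact Finset.union_subset_union_right (Finset.empty_subset _)
  · intro q hq
    rcases Finset.mem_union.mp hq with h | h
    · exact Or.inl (Finset.mem_union_left _ h)
    · obtain ⟨j, -, hj⟩ := Finset.mem_image.mp h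
      exact Or.inr ⟨j, hj⟩
  · intro j h
    rcases Finset.mem_union.mp h with h | h
    · exact hnS j h
    · exact absurd h (Finset.notMem_empty _)
  · by_contra hram
    exact hnS j ((hmin (qv j) (hqv j).1 (hne j)).mpr hram)

end SO

end Fermat.Agent.GE2.DeltaQInst
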