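/-
GATE-E (S59, pre-work) / E2 residue, node GE2-DELTAQ-DATA (helper22).

**The ring side of the Taylor–Wiles level, LABELLED form, `Fin r` indexing.**

`GE2/DeltaQInst` is binder-free (the local data are chosen inside and the units `g_j` come without
a description).  To identify the image of `g_j` in `T_Q` with the Galois diamond `x_j = χ₀(s_j)` of
GATE-B (`GB/B9/ProviderFlat/G4`, via `GB/E2/TWFunct.chars_map_eq`) one needs `g_j = χ₀(τ_j)` for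
GIVEN places `P_j ∣ qv j`, Frobenius elements `φ_j`, tame generators `τ_j` and a GIVEN labelling
`α_j ≠ β_j` of the eigenvalues of `ρ̄(φ_j)`.  This file is `GE2/DeltaQ` + `GE2/DeltaQInst` again with
these data as inputs, indexed by `j : Fin r` (no injectivity of `qv` needed).

* `LabelledAt ρ ψ P φ τ α β u` : `ρ|D_P = χ₀ ⊕ χ₁` in a basis, `χ₀(φ) ≡ ψ α`, `χ₁(φ) ≡ ψ β`,
  `u = χ₀(τ)`;
* `exists_tw_units_fin` : any complete noetherian local `A`;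
* `exists_tw_units_univ_fin` : `A = R_Q`, labels in `ResidueField 𝒪`;
* `exists_augQuot_units_fin_of_data` : with `π : R_Q ↠ R_∅`;
* `exists_augQuot_units_family_data`, `exists_augQuot_units_FL_data`,
  `exists_augQuot_units_SO_data` : the frozen S56-shaped deformation problems, frozen S56 spelling of
  the hypotheses on `qv`.
-/
import Mathlib
import Fermat.Agent.GE2.DeltaQInst

set_option autoImplicit false
set_option linter.unusedSectionVars false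

noncomputable section

namespace Fermat.Agent.GE2.DeltaQData

open IsLocalRing Function Polynomial GaloisRep
open Fermat.Agent.GE2.AugQuot Fermat.Agent.GE2.DeltaQ Fermat.Agent.GB.E2.TameGenAdic
  Fermat.Agent.GB.E2.TWDiag

/-- `ℚ̄`. -/
local notation "Qb" => AlgebraicClosure ℚ
/-- `G_ℚ`. -/
local notation "GQ" => (AlgebraicClosure ℚ ≃ₐ[ℚ] AlgebraicClosure ℚ)

/-- **the labelled local structure at a Taylor–Wiles place**: `ρ|D_P = χ₀ ⊕ χ₁` in a basis `B`,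
`χ₀(φ) ≡ ψ α`, `χ₁(φ) ≡ ψ β` in the residue field, and `u = χ₀(τ)`. -/
def LabelledAt {A : Type} [CommRing A] [IsLocalRing A] {k : Type} [Field k]
    (ρ : GaloisRepAdic A) (ψ : k →+* ResidueField A) (P : ValuationSubring Qb) (φ τ : GQ)
    (α β : k) (u : Aˣ) : Prop :=
  ∃ (hφ : φ ∈ P.decompositionSubgroup ℚ) (hτ : τ ∈ P.decompositionSubgroup ℚ)
    (B : Module.Basis (Fin 2) A ρ.V) (χ : Fin 2 → P.decompositionSubgroup ℚ →* Aˣ),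
    (∀ (i : Fin 2) (σ : P.decompositionSubgroup ℚ),
      ρ.ρ (σ : GQ) (B i) = (χ i σ : A) • B i) ∧
    residue A (χ 0 ⟨φ, hφ⟩ : A) = ψ α ∧ residue A (χ 1 ⟨φ, hφ⟩ : A) = ψ β ∧
    u = χ 0 ⟨τ, hτ⟩

section Ring

variable {A : Type} [CommRing A] [IsLocalRing A] [IsNoetherianRing A]
  [IsAdicComplete (maximalIdeal A) A]

/-- **`r` Taylor–Wiles primes, `Fin r` indexing, data as inputs.** -/
theorem exists_tw_units_fin (ρ : GaloisRepAdic A) {p : ℕ} (hp : p.Prime)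
    (hdet : ρ.DetIsCyclotomic p) {r : ℕ} (qv : Fin r → ℕ)
    (hQ : ∀ j, (qv j).Prime ∧ p ≠ qv j ∧ ((qv j : ℕ) : A) - 1 ∈ maximalIdeal A)
    (hres : ∀ j, ρ.residual.IsUnramifiedAt (qv j))
    (P : Fin r → ValuationSubring Qb) (hP : ∀ j, (P j).LiesOverPrime (qv j))
    (φ : Fin r → GQ) (hφ : ∀ j, (P j).IsFrobeniusAt (φ j) (qv j))
    (a₀ b₀ : Fin r → A)
    (hne : ∀ j, residue A (a₀ j) ≠ residue A (b₀ j))
    (hc : ∀ j, LinearMap.charpoly (ρ.residual.ρ (φ j)) =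
      (X - C (residue A (a₀ j))) * (X - C (residue A (b₀ j))))
    (τ : Fin r → GQ) (hτ : ∀ j, IsTameGenerator (P j) p (τ j)) :
    ∃ g : Fin r → Aˣ,
      (∀ j, LabelledAt ρ (RingHom.id (ResidueField A)) (P j) (φ j) (τ j)
        (residue A (a₀ j)) (residue A (b₀ j)) (g j)) ∧
      (∀ j, (g j : A) - 1 ∈ maximalIdeal A) ∧
      (∀ j, ∀ a m : ℕ, qv j = p ^ a * m + 1 → ¬ p ∣ m → g j ^ p ^ a = 1) ∧
      (∀ j, inertiaIdeal ρ {qv j} = Ideal.span {(g j : A) - 1}) ∧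
      inertiaIdeal ρ (Finset.univ.image qv) = Ideal.span (Set.range fun j => (g j : A) - 1) := by
  classical
  have key : ∀ j, ∃ u : Aˣ,
      LabelledAt ρ (RingHom.id (ResidueField A)) (P j) (φ j) (τ j)
        (residue A (a₀ j)) (residue A (b₀ j)) u ∧
      (u : A) - 1 ∈ maximalIdeal A ∧
      (∀ a m : ℕ, qv j = p ^ a * m + 1 → ¬ p ∣ m → u ^ p ^ a = 1) ∧
      inertiaIdeal ρ {qv j} = Ideal.span {(u : A) - 1} := by
    intro j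
    obtain ⟨hqp, hpq, hq1⟩ := hQ j
    obtain ⟨htr, hd, hab⟩ := lifts_of_charpoly ρ (φ j) (a₀ j) (b₀ j) (hne j) (hc j)
    obtain ⟨B, χ, hχ, h0, h1, hm, hpow, hI⟩ := exists_tw_unit ρ hp hqp hpq hdet (hres j) hq1
      (P j) (hP j) (hφ j) (a₀ j) (b₀ j) htr hd hab (hτ j)
    refine ⟨_, ⟨(hφ j).mem_decompositionSubgroup,
      inertia_le_decomposition (P j) (hτ j).mem_inertia, B, χ, hχ, ?_, ?_, rfl⟩, hm, hpow, hI⟩
    · have h2 := (residue_eq_zero_iff _).mpr h0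
      rw [map_sub, sub_eq_zero] at h2
      rw [h2]
      rfl
    · have h2 := (residue_eq_zero_iff _).mpr h1
      rw [map_sub, sub_eq_zero] at h2
      rw [h2]
      rfl
  choose g hg1 hg2 hg3 hg4 using key
  refine ⟨g, hg1, hg2, hg3, hg4, ?_⟩
  rw [inertiaIdeal_eq_iSup]
  refine le_antisymm (iSup₂_le fun q hq => ?_) (Ideal.span_le.mpr ?_)
  · obtain ⟨j, -, rfl⟩ := Finset.mem_image.mp hq
    rw [hg4 j]
    refine Ideal.span_mono ?_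
    intro a ha
    rw [Set.mem_singleton_iff] at ha
    subst ha
    exact ⟨j, rfl⟩
  · rintro a ⟨j, rfl⟩
    have h1 : (g j : A) - 1 ∈ inertiaIdeal ρ {qv j} := by
      rw [hg4 j]
      exact Ideal.subset_span rfl
    have hmem : qv j ∈ Finset.univ.image qv :=
      Finset.mem_image.mpr ⟨j, Finset.mem_univ j, rfl⟩
    exact (le_iSup₂ (f := fun q (_ : q ∈ Finset.univ.image qv) => inertiaIdeal ρ {q})
      (qv j) hmem) h1

end Ring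

section Univ

variable {𝒪 : Type} [CommRing 𝒪] [IsDomain 𝒪] [IsDiscreteValuationRing 𝒪]
  [IsAdicComplete (maximalIdeal 𝒪) 𝒪]
  {ρbar : ResidualGaloisRep (ResidueField 𝒪)}
  {𝒟₀ 𝒟Q : ∀ ⦃A : Type⦄ [CommRing A] [IsLocalRing A] [Algebra 𝒪 A], GaloisRepAdic A → Prop}
  (D₀ : DeformationRingData 𝒪 ρbar 𝒟₀) (DQ : DeformationRingData 𝒪 ρbar 𝒟Q)

/-- **the labelled Taylor–Wiles units of `R_Q`**, `Fin r` indexing. -/
theorem exists_tw_units_univ_fin {p : ℕ} (hp : p.Prime) {r : ℕ} (qv : Fin r → ℕ)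
    (hdetQ : DQ.ρ.DetIsCyclotomic p)
    (hQ : ∀ j, (qv j).Prime ∧ p ≠ qv j ∧ p ∣ qv j - 1)
    (hunr : ∀ j, ρbar.IsUnramifiedAt (qv j))
    (P : Fin r → ValuationSubring Qb) (hP : ∀ j, (P j).LiesOverPrime (qv j))
    (φ : Fin r → GQ) (hφ : ∀ j, (P j).IsFrobeniusAt (φ j) (qv j))
    (α β : Fin r → ResidueField 𝒪)
    (hαβ : ∀ j, α j ≠ β j ∧
      LinearMap.charpoly (ρbar.ρ (φ j)) = (X - C (α j)) * (X - C (β j)))
    (τ : Fin r → GQ) (hτ : ∀ j, IsTameGenerator (P j) p (τ j)) :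
    ∃ g : Fin r → (DQ.R)ˣ,
      (∀ j, LabelledAt DQ.ρ (ResidueField.map (algebraMap 𝒪 DQ.R)) (P j) (φ j) (τ j)
        (α j) (β j) (g j)) ∧
      (∀ j, (g j : DQ.R) - 1 ∈ maximalIdeal DQ.R) ∧
      (∀ j, ∀ a m : ℕ, qv j = p ^ a * m + 1 → ¬ p ∣ m → g j ^ p ^ a = 1) ∧
      (∀ j, inertiaIdeal DQ.ρ {qv j} = Ideal.span {(g j : DQ.R) - 1}) ∧
      inertiaIdeal DQ.ρ (Finset.univ.image qv) =
        Ideal.span (Set.range fun j => (g j : DQ.R) - 1) := by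
  set ψ := ResidueField.map (algebraMap 𝒪 DQ.R) with hψ
  have hlift : ∀ x : ResidueField 𝒪, ∃ a : DQ.R, residue DQ.R a = ψ x := fun x =>
    residue_surjective (ψ x)
  choose lift hlift' using hlift
  have hresQ : ∀ j, DQ.ρ.residual.IsUnramifiedAt (qv j) := fun j =>
    isUnramifiedAt_of_isEquiv_baseChangeAlong ψ ρbar DQ.ρ.residual DQ.residual_isEquiv (hunr j)
  obtain ⟨g, hg1, hg2, hg3, hg4, hg5⟩ := exists_tw_units_fin DQ.ρ hp hdetQ qv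
    (fun j => ⟨(hQ j).1, (hQ j).2.1, natCast_sub_one_mem hdetQ.1 (hQ j).1.pos (hQ j).2.2⟩)
    hresQ P hP φ hφ (fun j => lift (α j)) (fun j => lift (β j))
    (fun j => by
      rw [hlift', hlift']
      exact fun h => (hαβ j).1 (ψ.injective h))
    (fun j => by
      rw [charpoly_of_isEquiv_baseChangeAlong ψ ρbar DQ.ρ.residual DQ.residual_isEquiv,
        (hαβ j).2, Polynomial.map_mul, Polynomial.map_sub, Polynomial.map_sub, Polynomial.map_X,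
        Polynomial.map_C, Polynomial.map_C, hlift', hlift'])
    τ hτ
  refine ⟨g, fun j => ?_, hg2, hg3, hg4, hg5⟩
  obtain ⟨h1, h2, B, χ, hχ, h3, h4, h5⟩ := hg1 j
  refine ⟨h1, h2, B, χ, hχ, ?_, ?_, h5⟩
  · rw [h3, hlift']
    rfl
  · rw [h4, hlift']
    rfl

/-- **`π : R_Q ↠ R_∅`, `ker π = (g_j − 1)`, labelled.** -/
theorem exists_augQuot_units_fin_of_data {p : ℕ} (hp : p.Prime)
    (h𝒟Q : IsDeformationCondition 𝒪 𝒟Q) {r : ℕ} (qv : Fin r → ℕ)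
    (hdetQ : DQ.ρ.DetIsCyclotomic p)
    (hQ : ∀ j, (qv j).Prime ∧ p ≠ qv j ∧ p ∣ qv j - 1)
    (hunr : ∀ j, ρbar.IsUnramifiedAt (qv j))
    (h0Q : 𝒟Q D₀.ρ) (h0unr : ∀ j, D₀.ρ.IsUnramifiedAt (qv j))
    (h0 : ∀ (R' : Type) [CommRing R'] [IsLocalRing R'] [Algebra 𝒪 R'] (ρ : GaloisRepAdic R'),
      𝒟Q ρ → (∀ j, ρ.IsUnramifiedAt (qv j)) → 𝒟₀ ρ)
    (P : Fin r → ValuationSubring Qb) (hP : ∀ j, (P j).LiesOverPrime (qv j))
    (φ : Fin r → GQ) (hφ : ∀ j, (P j).IsFrobeniusAt (φ j) (qv j))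
    (α β : Fin r → ResidueField 𝒪)
    (hαβ : ∀ j, α j ≠ β j ∧
      LinearMap.charpoly (ρbar.ρ (φ j)) = (X - C (α j)) * (X - C (β j)))
    (τ : Fin r → GQ) (hτ : ∀ j, IsTameGenerator (P j) p (τ j)) :
    ∃ (π : DQ.R →ₐ[𝒪] D₀.R) (hπ : IsLocalHom (π : DQ.R →+* D₀.R)) (g : Fin r → (DQ.R)ˣ),
      Surjective π ∧
      RingHom.ker (π : DQ.R →+* D₀.R) =
        Ideal.span (Set.range fun j => (g j : DQ.R) - 1) ∧
      (DQ.ρ.baseChangeAlong (π : DQ.R →+* D₀.R) hπ).IsEquiv D₀.ρ ∧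
      (∀ j, (g j : DQ.R) - 1 ∈ maximalIdeal DQ.R) ∧
      (∀ j, ∀ a m : ℕ, qv j = p ^ a * m + 1 → ¬ p ∣ m → g j ^ p ^ a = 1) ∧
      (∀ j, π (g j : DQ.R) = 1) ∧
      (∀ j, LabelledAt DQ.ρ (ResidueField.map (algebraMap 𝒪 DQ.R)) (P j) (φ j) (τ j)
        (α j) (β j) (g j)) := by
  classical
  obtain ⟨g, hg1, hg2, hg3, -, hg5⟩ :=
    exists_tw_units_univ_fin DQ hp qv hdetQ hQ hunr P hP φ hφ α β hαβ τ hτ
  set Q : Finset ℕ := Finset.univ.image qv with hQdef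
  have hmem : ∀ q ∈ Q, ∃ j, qv j = q := fun q hq => by
    obtain ⟨j, -, hj⟩ := Finset.mem_image.mp hq
    exact ⟨j, hj⟩
  have hmem' : ∀ j, qv j ∈ Q := fun j => Finset.mem_image.mpr ⟨j, Finset.mem_univ j, rfl⟩
  have hresQ : ∀ q ∈ Q, DQ.ρ.residual.IsUnramifiedAt q := fun q hq => by
    obtain ⟨j, rfl⟩ := hmem q hq
    exact isUnramifiedAt_of_isEquiv_baseChangeAlong _ ρbar DQ.ρ.residual DQ.residual_isEquiv
      (hunr j)
  obtain ⟨π, hπ, hπs, hπk, heπ⟩ :=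
    exists_augQuot_inertia_of_isDeformationCondition D₀ DQ h𝒟Q Q hresQ h0Q
      (fun q hq => by obtain ⟨j, rfl⟩ := hmem q hq; exact h0unr j)
      (fun R' _ _ _ ρ h1 h2 => h0 R' ρ h1 fun j => h2 (qv j) (hmem' j))
  refine ⟨π, hπ, g, hπs, hπk.trans hg5, heπ, hg2, hg3, fun j => ?_, hg1⟩
  have h1 : (g j : DQ.R) - 1 ∈ RingHom.ker (π : DQ.R →+* D₀.R) := by
    rw [hπk, hg5]
    exact Ideal.subset_span ⟨j, rfl⟩
  have h2 : π ((g j : DQ.R) - 1) = 0 := h1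
  rw [map_sub, map_one, sub_eq_zero] at h2
  exact h2

end Univ

section Family

variable {𝒪 : Type} [CommRing 𝒪] [IsDomain 𝒪] [IsDiscreteValuationRing 𝒪]
  [IsAdicComplete (maximalIdeal 𝒪) 𝒪]
  {ρbar : ResidualGaloisRep (ResidueField 𝒪)}

/-- **generic form** over a family of deformation problems (as `DeltaQInst`), labelled. -/
theorem exists_augQuot_units_family_data {p : ℕ} [Fact p.Prime]
    (𝒟 : Finset ℕ → ∀ ⦃A : Type⦄ [CommRing A] [IsLocalRing A] [Algebra 𝒪 A],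
      GaloisRepAdic A → Prop)
    (h𝒟 : ∀ T, IsDeformationCondition 𝒪 (𝒟 T))
    (hdet : ∀ (T : Finset ℕ) (A : Type) [CommRing A] [IsLocalRing A] [Algebra 𝒪 A]
      (ρ : GaloisRepAdic A), 𝒟 T ρ → ρ.DetIsCyclotomic p)
    (hunrOut : ∀ (T : Finset ℕ) (A : Type) [CommRing A] [IsLocalRing A] [Algebra 𝒪 A]
      (ρ : GaloisRepAdic A), 𝒟 T ρ → ∀ q : ℕ, q.Prime → q ∉ T → ρ.IsUnramifiedAt q)
    (hmono : ∀ (T T' : Finset ℕ), T ⊆ T' → ∀ (A : Type) [CommRing A] [IsLocalRing A]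
      [Algebra 𝒪 A] (ρ : GaloisRepAdic A), 𝒟 T ρ → 𝒟 T' ρ)
    (hdesc : ∀ (T T' : Finset ℕ), T ⊆ T' → ∀ (A : Type) [CommRing A] [IsLocalRing A]
      [Algebra 𝒪 A] (ρ : GaloisRepAdic A), 𝒟 T' ρ →
        (∀ q ∈ T', q ∉ T → ρ.IsUnramifiedAt q) → 𝒟 T ρ)
    (T₀ TQ : Finset ℕ) {r : ℕ} (qv : Fin r → ℕ)
    (hsub : T₀ ⊆ TQ) (hTQ : ∀ q ∈ TQ, q ∈ T₀ ∨ ∃ j, qv j = q) (hqvT : ∀ j, qv j ∉ T₀)
    (D₀ : DeformationRingData 𝒪 ρbar (𝒟 T₀)) (DQ : DeformationRingData 𝒪 ρbar (𝒟 TQ))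
    (hQ : ∀ j, (qv j).Prime ∧ p ∣ qv j - 1)
    (hunr : ∀ j, ρbar.IsUnramifiedAt (qv j))
    (P : Fin r → ValuationSubring Qb) (hP : ∀ j, (P j).LiesOverPrime (qv j))
    (φ : Fin r → GQ) (hφ : ∀ j, (P j).IsFrobeniusAt (φ j) (qv j))
    (α β : Fin r → ResidueField 𝒪)
    (hαβ : ∀ j, α j ≠ β j ∧
      LinearMap.charpoly (ρbar.ρ (φ j)) = (X - C (α j)) * (X - C (β j)))
    (τ : Fin r → GQ) (hτ : ∀ j, IsTameGenerator (P j) p (τ j)) :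
    ∃ (π : DQ.R →ₐ[𝒪] D₀.R) (hπ : IsLocalHom (π : DQ.R →+* D₀.R)) (g : Fin r → (DQ.R)ˣ),
      Surjective π ∧
      RingHom.ker (π : DQ.R →+* D₀.R) =
        Ideal.span (Set.range fun j => (g j : DQ.R) - 1) ∧
      (DQ.ρ.baseChangeAlong (π : DQ.R →+* D₀.R) hπ).IsEquiv D₀.ρ ∧
      (∀ j, (g j : DQ.R) - 1 ∈ maximalIdeal DQ.R) ∧
      (∀ j, ∀ a m : ℕ, qv j = p ^ a * m + 1 → ¬ p ∣ m → g j ^ p ^ a = 1) ∧
      (∀ j, π (g j : DQ.R) = 1) ∧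
      (∀ j, LabelledAt DQ.ρ (ResidueField.map (algebraMap 𝒪 DQ.R)) (P j) (φ j) (τ j)
        (α j) (β j) (g j)) := by
  have hp : p.Prime := Fact.out
  refine exists_augQuot_units_fin_of_data D₀ DQ hp (h𝒟 TQ) qv (hdet TQ DQ.R DQ.ρ DQ.isOfType)
    (fun j => ⟨(hQ j).1, Fermat.Agent.GE2.DeltaQInst.ne_of_dvd_sub_one hp (hQ j).2 (hQ j).1,
      (hQ j).2⟩) hunr
    (hmono T₀ TQ hsub D₀.R D₀.ρ D₀.isOfType)
    (fun j => hunrOut T₀ D₀.R D₀.ρ D₀.isOfType (qv j) (hQ j).1 (hqvT j))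
    (fun R' _ _ _ ρ h1 h2 => hdesc T₀ TQ hsub R' ρ h1 fun q hq hq0 => ?_)
    P hP φ hφ α β hαβ τ hτ
  rcases hTQ q hq with h | ⟨j, rfl⟩
  · exact absurd h hq0
  · exact h2 j

/-- index bookkeeping for the frozen S56 spelling. -/
theorem s56_index_facts {p : ℕ} (S Smin : Finset ℕ) (hpSmin : p ∈ Smin) (hSmin : Smin ⊆ S)
    (hmin : ∀ q : ℕ, q.Prime → q ≠ p → (q ∈ Smin ↔ ¬ ρbar.IsUnramifiedAt q))
    {r : ℕ} (n : ℕ) (qv : Fin r → ℕ)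
    (hqv : ∀ i, (qv i).Prime ∧ qv i ∉ S ∧ p ^ (n + 1) ∣ qv i - 1) :
    Smin ∪ ∅ ⊆ Smin ∪ Finset.univ.image qv ∧
      (∀ q ∈ Smin ∪ Finset.univ.image qv, q ∈ Smin ∪ ∅ ∨ ∃ j, qv j = q) ∧
      (∀ j, qv j ∉ Smin ∪ ∅) ∧ (∀ j, (qv j).Prime ∧ p ∣ qv j - 1) ∧
      ∀ j, ρbar.IsUnramifiedAt (qv j) := by
  classical
  have hnS : ∀ j, qv j ∉ Smin := fun j h => (hqv j).2.1 (hSmin h)
  have hne : ∀ j, qv j ≠ p := fun j h => hnS j (h ▸ hpSmin)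
  refine ⟨Finset.union_subset_union_right (Finset.empty_subset _), ?_, ?_, ?_, ?_⟩
  · intro q hq
    rcases Finset.mem_union.mp hq with h | h
    · exact Or.inl (Finset.mem_union_left _ h)
    · obtain ⟨j, -, hj⟩ := Finset.mem_image.mp h
      exact Or.inr ⟨j, hj⟩
  · intro j h
    rcases Finset.mem_union.mp h with h | h
    · exact hnS j h
    · exact absurd h (Finset.notMem_empty _)
  · exact fun j => ⟨(hqv j).1, dvd_trans (dvd_pow_self p (Nat.succ_ne_zero n)) (hqv j).2.2⟩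
  · intro j
    by_contra hram
    exact hnS j ((hmin (qv j) (hqv j).1 (hne j)).mpr hram)

end Family

section FLSO

variable {𝒪 : Type} [CommRing 𝒪] [IsDomain 𝒪] [IsDiscreteValuationRing 𝒪]
  [IsAdicComplete (maximalIdeal 𝒪) 𝒪]
  {ρbar : ResidualGaloisRep (ResidueField 𝒪)} {p : ℕ} [Fact p.Prime]

/-- **flat case, frozen S56 spelling, labelled.** -/
theorem exists_augQuot_units_FL_data [Finite (ResidueField 𝒪)] (S Smin : Finset ℕ)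
    (hpSmin : p ∈ Smin) (hSmin : Smin ⊆ S)
    (hmin : ∀ q : ℕ, q.Prime → q ≠ p → (q ∈ Smin ↔ ¬ ρbar.IsUnramifiedAt q))
    {r : ℕ} (n : ℕ) (qv : Fin r → ℕ)
    (hqv : ∀ i, (qv i).Prime ∧ qv i ∉ S ∧ p ^ (n + 1) ∣ qv i - 1)
    (D₀ : DeformationRingData 𝒪 ρbar (fun _A _ _ _ ρ =>
      GaloisRep.flatCondition 𝒪 p (Smin ∪ ∅) ρ ∧
        ∀ q ∈ Smin, q.Prime → q ≠ p → ρ.IsUnipotentOnInertiaAt q))
    (DQ : DeformationRingData 𝒪 ρbar (fun _A _ _ _ ρ =>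
      GaloisRep.flatCondition 𝒪 p (Smin ∪ Finset.univ.image qv) ρ ∧
        ∀ q ∈ Smin, q.Prime → q ≠ p → ρ.IsUnipotentOnInertiaAt q))
    (P : Fin r → ValuationSubring Qb) (hP : ∀ j, (P j).LiesOverPrime (qv j))
    (φ : Fin r → GQ) (hφ : ∀ j, (P j).IsFrobeniusAt (φ j) (qv j))
    (α β : Fin r → ResidueField 𝒪)
    (hαβ : ∀ j, α j ≠ β j ∧
      LinearMap.charpoly (ρbar.ρ (φ j)) = (X - C (α j)) * (X - C (β j)))
    (τ : Fin r → GQ) (hτ : ∀ j, IsTameGenerator (P j) p (τ j)) :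
    ∃ (π : DQ.R →ₐ[𝒪] D₀.R) (hπ : IsLocalHom (π : DQ.R →+* D₀.R)) (g : Fin r → (DQ.R)ˣ),
      Surjective π ∧
      RingHom.ker (π : DQ.R →+* D₀.R) =
        Ideal.span (Set.range fun j => (g j : DQ.R) - 1) ∧
      (DQ.ρ.baseChangeAlong (π : DQ.R →+* D₀.R) hπ).IsEquiv D₀.ρ ∧
      (∀ j, (g j : DQ.R) - 1 ∈ maximalIdeal DQ.R) ∧
      (∀ j, ∀ a m : ℕ, qv j = p ^ a * m + 1 → ¬ p ∣ m → g j ^ p ^ a = 1) ∧
      (∀ j, π (g j : DQ.R) = 1) ∧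
      (∀ j, LabelledAt DQ.ρ (ResidueField.map (algebraMap 𝒪 DQ.R)) (P j) (φ j) (τ j)
        (α j) (β j) (g j)) := by
  obtain ⟨h1, h2, h3, h4, h5⟩ := s56_index_facts S Smin hpSmin hSmin hmin n qv hqv
  exact exists_augQuot_units_family_data (p := p)
    (fun T _A _ _ _ ρ => GaloisRep.flatCondition 𝒪 p T ρ ∧
      ∀ q ∈ Smin, q.Prime → q ≠ p → ρ.IsUnipotentOnInertiaAt q)
    (fun T => Fermat.Agent.GB.Def.Cond.isDeformationCondition_FL 𝒪 p T Smin)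
    (fun _ _ _ _ _ _ h => h.1.1)
    (fun _ _ _ _ _ _ h q hq hqT => h.1.2.2 q hq hqT)
    (fun _ _ hTT _ _ _ _ _ h =>
      ⟨⟨h.1.1, h.1.2.1, fun q hq hqT => h.1.2.2 q hq fun hmem => hqT (hTT hmem)⟩, h.2⟩)
    (fun T T' _ _ _ _ _ ρ h hu =>
      ⟨⟨h.1.1, h.1.2.1, fun q hq hqT => by
        by_cases hq' : q ∈ T'
        · exact hu q hq' hqT
        · exact h.1.2.2 q hq hq'⟩, h.2⟩)
    (Smin ∪ ∅) (Smin ∪ Finset.univ.image qv) qv h1 h2 h3 D₀ DQ h4 h5 P hP φ hφ α β hαβ τ hτ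

/-- **strict-ordinary case, frozen S56 spelling, labelled** (`p` odd). -/
theorem exists_augQuot_units_SO_data (hp2 : p ≠ 2) (S Smin : Finset ℕ)
    (hpSmin : p ∈ Smin) (hSmin : Smin ⊆ S)
    (hmin : ∀ q : ℕ, q.Prime → q ≠ p → (q ∈ Smin ↔ ¬ ρbar.IsUnramifiedAt q))
    {r : ℕ} (n : ℕ) (qv : Fin r → ℕ)
    (hqv : ∀ i, (qv i).Prime ∧ qv i ∉ S ∧ p ^ (n + 1) ∣ qv i - 1)
    (D₀ : DeformationRingData 𝒪 ρbar (fun _A _ _ _ ρ =>
      GaloisRep.strictOrdinaryCondition 𝒪 p (Smin ∪ ∅) ρ ∧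
        ∀ q ∈ Smin, q.Prime → q ≠ p → ρ.IsUnipotentOnInertiaAt q))
    (DQ : DeformationRingData 𝒪 ρbar (fun _A _ _ _ ρ =>
      GaloisRep.strictOrdinaryCondition 𝒪 p (Smin ∪ Finset.univ.image qv) ρ ∧
        ∀ q ∈ Smin, q.Prime → q ≠ p → ρ.IsUnipotentOnInertiaAt q))
    (P : Fin r → ValuationSubring Qb) (hP : ∀ j, (P j).LiesOverPrime (qv j))
    (φ : Fin r → GQ) (hφ : ∀ j, (P j).IsFrobeniusAt (φ j) (qv j))
    (α β : Fin r → ResidueField 𝒪)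
    (hαβ : ∀ j, α j ≠ β j ∧
      LinearMap.charpoly (ρbar.ρ (φ j)) = (X - C (α j)) * (X - C (β j)))
    (τ : Fin r → GQ) (hτ : ∀ j, IsTameGenerator (P j) p (τ j)) :
    ∃ (π : DQ.R →ₐ[𝒪] D₀.R) (hπ : IsLocalHom (π : DQ.R →+* D₀.R)) (g : Fin r → (DQ.R)ˣ),
      Surjective π ∧
      RingHom.ker (π : DQ.R →+* D₀.R) =
        Ideal.span (Set.range fun j => (g j : DQ.R) - 1) ∧
      (DQ.ρ.baseChangeAlong (π : DQ.R →+* D₀.R) hπ).IsEquiv D₀.ρ ∧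
      (∀ j, (g j : DQ.R) - 1 ∈ maximalIdeal DQ.R) ∧
      (∀ j, ∀ a m : ℕ, qv j = p ^ a * m + 1 → ¬ p ∣ m → g j ^ p ^ a = 1) ∧
      (∀ j, π (g j : DQ.R) = 1) ∧
      (∀ j, LabelledAt DQ.ρ (ResidueField.map (algebraMap 𝒪 DQ.R)) (P j) (φ j) (τ j)
        (α j) (β j) (g j)) := by
  obtain ⟨h1, h2, h3, h4, h5⟩ := s56_index_facts S Smin hpSmin hSmin hmin n qv hqv
  exact exists_augQuot_units_family_data (p := p)
    (fun T _A _ _ _ ρ => GaloisRep.strictOrdinaryCondition 𝒪 p T ρ ∧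
      ∀ q ∈ Smin, q.Prime → q ≠ p → ρ.IsUnipotentOnInertiaAt q)
    (fun T => Fermat.Agent.GB.Def.Cond.isDeformationCondition_SO 𝒪 p hp2 T Smin)
    (fun _ _ _ _ _ _ h => h.1.1)
    (fun _ _ _ _ _ _ h q hq hqT => h.1.2.2 q hq hqT)
    (fun _ _ hTT _ _ _ _ _ h =>
      ⟨⟨h.1.1, h.1.2.1, fun q hq hqT => h.1.2.2 q hq fun hmem => hqT (hTT hmem)⟩, h.2⟩)
    (fun T T' _ _ _ _ _ ρ h hu =>
      ⟨⟨h.1.1, h.1.2.1, fun q hq hqT => by
        by_cases hq' : q ∈ T'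
        · exact hu q hq' hqT
        · exact h.1.2.2 q hq hq'⟩, h.2⟩)
    (Smin ∪ ∅) (Smin ∪ Finset.univ.image qv) qv h1 h2 h3 D₀ DQ h4 h5 P hP φ hφ α β hαβ τ hτ

end FLSO

end Fermat.Agent.GE2.DeltaQData
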