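/-
GATE-E (S59, pre-work) / E2 residue, node GE2-LABELMAP (helper22).

**The labelled Taylor–Wiles units are functorial and unique.**

`GE2/DeltaQData.LabelledAt ρ ψ P φ τ α β u` says: `ρ|D_P = χ₀ ⊕ χ₁` in SOME basis, with
`χ₀(φ) ≡ ψ α`, `χ₁(φ) ≡ ψ β`, and `u = χ₀(τ)`.  For the seam of ENGINE-INST flagged by helper72
(audit v1, item 4: `x j := ψ_Q (g j)` must be `χ₀^{T_Q}(τ_j)` for EVERY diagonalisation of `ρ_Q` at
`q_j`, which is the generality in which the (1pt)/(Wpt) suppliers of GATE-B are stated) we prove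

* `labelledAt_unique`   : `α ≠ β` ⟹ the unit `u` is determined by `(ρ, ψ, P, φ, τ, α, β)`,
                          independently of the diagonalisation;
* `labelledAt_map`      : `LabelledAt` pushes forward along a local homomorphism `f : A → A'` and an
                          equivalence `ρ ⊗_f A' ≅ ρ'`:  the unit becomes `f u`;
* `eq_map_of_labelledAt`: two labellings over `A`, `A'` of equivalent representations: `u' = f u`;
* `chars_eq_map_of_labelledAt` : the same with the diagonalisation of `ρ'` spelled out: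
                          `χ'₀(τ) = f u` for EVERY diagonalisation `(B', χ')` of `ρ'|D_P` ordered by
                          `(α, β)`;
* `_algHom` forms       : `𝒪`-algebras, `ψ = ResidueField.map (algebraMap 𝒪 ·)` (the spelling of
                          `exists_augQuot_units_FL_data` / `_SO_data`), `f` an `𝒪`-algebra map.

Mathlib + Prelude + `GB/E2/TWFunct` (helper91) + `GE2/DeltaQData` only.
-/
import Mathlib
import Fermat.Agent.GE2.DeltaQData
import Fermat.Agent.GB.E2.TWFunct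

set_option autoImplicit false
set_option linter.unusedSectionVars false

noncomputable section

namespace Fermat.Agent.GE2.LabelMap

open IsLocalRing Function
open Fermat.Agent.GE2.DeltaQData Fermat.Agent.GB.E2.TWFunct
open scoped TensorProduct

/-- `ℚ̄`. -/
local notation "Qb" => AlgebraicClosure ℚ
/-- `G_ℚ`. -/
local notation "GQ" => (AlgebraicClosure ℚ ≃ₐ[ℚ] AlgebraicClosure ℚ)

section Ring

variable {A A' : Type} [CommRing A] [IsLocalRing A] [CommRing A'] [IsLocalRing A']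
  {k : Type} [Field k]

/-- lifting a label to the ring. -/
theorem exists_lift_label (ψ : k →+* ResidueField A) {α β : k} (hαβ : α ≠ β) :
    ∃ a₀ b₀ : A, residue A a₀ = ψ α ∧ residue A b₀ = ψ β ∧ IsUnit (a₀ - b₀) := by
  obtain ⟨a₀, ha₀⟩ := residue_surjective (ψ α)
  obtain ⟨b₀, hb₀⟩ := residue_surjective (ψ β)
  refine ⟨a₀, b₀, ha₀, hb₀, ?_⟩
  by_contra hnu
  have hmem : a₀ - b₀ ∈ maximalIdeal A := (mem_maximalIdeal _).2 hnu
  have h0 : residue A (a₀ - b₀) = 0 := (residue_eq_zero_iff _).2 hmem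
  rw [map_sub, ha₀, hb₀, sub_eq_zero] at h0
  exact hαβ (ψ.injective h0)

/-- membership in the maximal ideal from equal residues. -/
theorem sub_mem_of_residue_eq {x y : A} (h : residue A x = residue A y) :
    x - y ∈ maximalIdeal A := by
  rw [← residue_eq_zero_iff, map_sub, h, sub_self]

/-- **Uniqueness of the diagonal characters on a subgroup** (monoid-hom form of
`TWFunct.diag_char_unique`). -/
theorem chars_unique (ρ : GaloisRepAdic A) (H : Subgroup GQ) (φ : H)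
    (B B' : Module.Basis (Fin 2) A ρ.V) (χ χ' : Fin 2 → H →* Aˣ)
    (hχ : ∀ (i : Fin 2) (σ : H), ρ.ρ (σ : GQ) (B i) = (χ i σ : A) • B i)
    (hχ' : ∀ (i : Fin 2) (σ : H), ρ.ρ (σ : GQ) (B' i) = (χ' i σ : A) • B' i)
    (a₀ b₀ : A) (hab : IsUnit (a₀ - b₀))
    (ha : (χ 0 φ : A) - a₀ ∈ maximalIdeal A) (hb : (χ 1 φ : A) - b₀ ∈ maximalIdeal A)
    (ha' : (χ' 0 φ : A) - a₀ ∈ maximalIdeal A) (hb' : (χ' 1 φ : A) - b₀ ∈ maximalIdeal A) :
    ∀ i : Fin 2, χ' i = χ i := by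
  have key := diag_char_unique (G := H) (ρ.ρ.comp H.subtype) B B' Set.univ φ (Set.mem_univ _)
    (fun i g => (χ i g : A)) (fun i g => (χ' i g : A))
    (fun i g _ => hχ i g) (fun i g _ => hχ' i g) ?_ ?_
  · intro i
    ext σ
    exact key i σ (Set.mem_univ _)
  · refine isUnit_of_sub_mem hab ?_
    have : (χ' 0 φ : A) - (χ 1 φ : A) - (a₀ - b₀) =
        ((χ' 0 φ : A) - a₀) - ((χ 1 φ : A) - b₀) := by ring
    rw [this]
    exact Ideal.sub_mem _ ha' hb
  · refine isUnit_of_sub_mem hab.neg ?_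
    have : (χ' 1 φ : A) - (χ 0 φ : A) - -(a₀ - b₀) =
        ((χ' 1 φ : A) - b₀) - ((χ 0 φ : A) - a₀) := by ring
    rw [this]
    exact Ideal.sub_mem _ hb' ha

/-- **Uniqueness of the labelled unit**: for `α ≠ β` the unit `u = χ₀(τ)` does not depend on the
diagonalisation. -/
theorem labelledAt_unique {ρ : GaloisRepAdic A} {ψ : k →+* ResidueField A}
    {P : ValuationSubring Qb} {φ τ : GQ} {α β : k} (hαβ : α ≠ β) {u u' : Aˣ}
    (h : LabelledAt ρ ψ P φ τ α β u) (h' : LabelledAt ρ ψ P φ τ α β u') : u' = u := by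
  obtain ⟨hφ, hτ, B, χ, hχ, h0, h1, rfl⟩ := h
  obtain ⟨_, _, B', χ', hχ', h0', h1', rfl⟩ := h'
  obtain ⟨a₀, b₀, ha₀, hb₀, hab⟩ := exists_lift_label ψ hαβ
  have key := chars_unique ρ (P.decompositionSubgroup ℚ) ⟨φ, hφ⟩ B B' χ χ' hχ hχ' a₀ b₀ hab
    (sub_mem_of_residue_eq (h0.trans ha₀.symm)) (sub_mem_of_residue_eq (h1.trans hb₀.symm))
    (sub_mem_of_residue_eq (h0'.trans ha₀.symm)) (sub_mem_of_residue_eq (h1'.trans hb₀.symm))
  exact congrArg (fun c : P.decompositionSubgroup ℚ →* Aˣ => c ⟨τ, hτ⟩) (key 0)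

/-- **Push-forward of a labelling** along a local homomorphism `f : A → A'` and an equivalence
`ρ ⊗_f A' ≅ ρ'`; `ψ'` is any map compatible with `ψ` through `f` (see `labelledAt_map_algHom`). -/
theorem labelledAt_map (f : A →+* A') (hf : IsLocalHom f) {ρ : GaloisRepAdic A}
    {ρ' : GaloisRepAdic A'} (e : (ρ.baseChangeAlong f hf).IsEquiv ρ')
    {ψ : k →+* ResidueField A} (ψ' : k →+* ResidueField A')
    (hψ : ∀ (x : k) (a : A), residue A a = ψ x → residue A' (f a) = ψ' x)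
    {P : ValuationSubring Qb} {φ τ : GQ} {α β : k} {u : Aˣ}
    (h : LabelledAt ρ ψ P φ τ α β u) :
    LabelledAt ρ' ψ' P φ τ α β (Units.map (f : A →* A') u) := by
  obtain ⟨hφ, hτ, B, χ, hχ, h0, h1, rfl⟩ := h
  obtain ⟨e⟩ := e
  letI : Algebra A A' := f.toAlgebra
  -- the transported basis of `ρ'.V`
  let B₁ : Module.Basis (Fin 2) A' ρ'.V := (B.baseChange A').map e.toLinearEquiv
  have hB₁ : ∀ (i : Fin 2) (σ : P.decompositionSubgroup ℚ),
      ρ'.ρ (σ : GQ) (B₁ i) = (((Units.map (f : A →* A')).comp (χ i)) σ : A') • B₁ i := by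
    intro i σ
    have h1 : B₁ i = e.toLinearEquiv ((1 : A') ⊗ₜ[A] B i) :=
      congrArg e.toLinearEquiv (Module.Basis.baseChange_apply A' B i)
    have h2 : (ρ.baseChangeAlong f hf).ρ (σ : GQ) ((1 : A') ⊗ₜ[A] B i) =
        ((1 : A') ⊗ₜ[A] (ρ.ρ (σ : GQ) (B i)) : A' ⊗[A] ρ.V) := LinearMap.baseChange_tmul _ _ _
    have h3 : ((1 : A') ⊗ₜ[A] ((χ i σ : A) • B i) : A' ⊗[A] ρ.V) =
        f (χ i σ : A) • ((1 : A') ⊗ₜ[A] B i) := by
      rw [TensorProduct.tmul_smul, TensorProduct.smul_tmul', TensorProduct.smul_tmul',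
        Algebra.smul_def, smul_eq_mul, mul_one, mul_one]
      rfl
    have h4 := e.map_apply (σ : GQ) ((1 : A') ⊗ₜ[A] B i)
    rw [h1, ← h4]
    have h5 : (ρ.baseChangeAlong f hf).ρ (σ : GQ) ((1 : A') ⊗ₜ[A] B i) =
        (f (χ i σ : A) • ((1 : A') ⊗ₜ[A] B i) : A' ⊗[A] ρ.V) := by
      rw [h2, hχ i σ, h3]
    exact (congrArg e.toLinearEquiv h5).trans (map_smul e.toLinearEquiv _ _)
  refine ⟨hφ, hτ, B₁, fun i => (Units.map (f : A →* A')).comp (χ i), hB₁, ?_, ?_, rfl⟩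
  · exact hψ α _ h0
  · exact hψ β _ h1

/-- **Two labellings of equivalent representations**: `u' = f u`. -/
theorem eq_map_of_labelledAt (f : A →+* A') (hf : IsLocalHom f) {ρ : GaloisRepAdic A}
    {ρ' : GaloisRepAdic A'} (e : (ρ.baseChangeAlong f hf).IsEquiv ρ')
    {ψ : k →+* ResidueField A} (ψ' : k →+* ResidueField A')
    (hψ : ∀ (x : k) (a : A), residue A a = ψ x → residue A' (f a) = ψ' x)
    {P : ValuationSubring Qb} {φ τ : GQ} {α β : k} (hαβ : α ≠ β) {u : Aˣ} {u' : A'ˣ}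
    (h : LabelledAt ρ ψ P φ τ α β u) (h' : LabelledAt ρ' ψ' P φ τ α β u') :
    u' = Units.map (f : A →* A') u :=
  labelledAt_unique hαβ (labelledAt_map f hf e ψ' hψ h) h'

/-- **The seam of ENGINE-INST, explicit form**: for EVERY diagonalisation `(B', χ')` of `ρ'|D_P`
ordered by the labels `(α, β)`, `χ'₀(τ) = f u`. -/
theorem chars_eq_map_of_labelledAt (f : A →+* A') (hf : IsLocalHom f) {ρ : GaloisRepAdic A}
    {ρ' : GaloisRepAdic A'} (e : (ρ.baseChangeAlong f hf).IsEquiv ρ')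
    {ψ : k →+* ResidueField A} (ψ' : k →+* ResidueField A')
    (hψ : ∀ (x : k) (a : A), residue A a = ψ x → residue A' (f a) = ψ' x)
    {P : ValuationSubring Qb} {φ τ : GQ} {α β : k} (hαβ : α ≠ β) {u : Aˣ}
    (h : LabelledAt ρ ψ P φ τ α β u)
    (hφ : φ ∈ P.decompositionSubgroup ℚ) (hτ : τ ∈ P.decompositionSubgroup ℚ)
    (B' : Module.Basis (Fin 2) A' ρ'.V) (χ' : Fin 2 → P.decompositionSubgroup ℚ →* A'ˣ)
    (hχ' : ∀ (i : Fin 2) (σ : P.decompositionSubgroup ℚ),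
      ρ'.ρ (σ : GQ) (B' i) = (χ' i σ : A') • B' i)
    (h0 : residue A' (χ' 0 ⟨φ, hφ⟩ : A') = ψ' α) (h1 : residue A' (χ' 1 ⟨φ, hφ⟩ : A') = ψ' β) :
    χ' 0 ⟨τ, hτ⟩ = Units.map (f : A →* A') u :=
  eq_map_of_labelledAt f hf e ψ' hψ hαβ h ⟨hφ, hτ, B', χ', hχ', h0, h1, rfl⟩

/-- the labelled unit is a principal unit as soon as `τ` acts trivially on the residual
representation in the `χ₀`-direction: here in the only form needed, `u - 1 ∈ 𝔪` is preserved. -/
theorem map_sub_one_mem (f : A →+* A') (hf : IsLocalHom f) {u : Aˣ}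
    (hu : (u : A) - 1 ∈ maximalIdeal A) :
    ((Units.map (f : A →* A') u : A'ˣ) : A') - 1 ∈ maximalIdeal A' := by
  haveI := hf
  have : ((Units.map (f : A →* A') u : A'ˣ) : A') - 1 = f ((u : A) - 1) := by
    rw [map_sub, map_one]; rfl
  rw [this]
  exact map_nonunit f _ hu

end Ring

section Alg

variable {𝒪 : Type} [CommRing 𝒪] [IsLocalRing 𝒪]
  {A A' : Type} [CommRing A] [IsLocalRing A] [CommRing A'] [IsLocalRing A']
  [Algebra 𝒪 A] [Algebra 𝒪 A'] [IsLocalHom (algebraMap 𝒪 A)] [IsLocalHom (algebraMap 𝒪 A')]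

/-- the compatibility of the two residue-field labellings through an `𝒪`-algebra map. -/
theorem residue_compat (f : A →ₐ[𝒪] A') (hf : IsLocalHom (f : A →+* A'))
    (x : ResidueField 𝒪) (a : A)
    (h : residue A a = ResidueField.map (algebraMap 𝒪 A) x) :
    residue A' ((f : A →+* A') a) = ResidueField.map (algebraMap 𝒪 A') x := by
  haveI := hf
  obtain ⟨x₀, rfl⟩ := residue_surjective x
  rw [ResidueField.map_residue] at h ⊢
  have hmem : a - algebraMap 𝒪 A x₀ ∈ maximalIdeal A := by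
    rw [← residue_eq_zero_iff, map_sub, h, sub_self]
  have h2 : (f : A →+* A') (a - algebraMap 𝒪 A x₀) ∈ maximalIdeal A' :=
    map_nonunit (f : A →+* A') _ hmem
  rw [map_sub] at h2
  have h3 : (f : A →+* A') (algebraMap 𝒪 A x₀) = algebraMap 𝒪 A' x₀ := f.commutes x₀
  rw [h3, ← residue_eq_zero_iff, map_sub, sub_eq_zero] at h2
  exact h2

/-- `labelledAt_map`, `𝒪`-algebra form (the spelling of `exists_augQuot_units_FL_data`). -/
theorem labelledAt_map_algHom (f : A →ₐ[𝒪] A') (hf : IsLocalHom (f : A →+* A'))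
    {ρ : GaloisRepAdic A} {ρ' : GaloisRepAdic A'}
    (e : (ρ.baseChangeAlong (f : A →+* A') hf).IsEquiv ρ')
    {P : ValuationSubring Qb} {φ τ : GQ} {α β : ResidueField 𝒪} {u : Aˣ}
    (h : LabelledAt ρ (ResidueField.map (algebraMap 𝒪 A)) P φ τ α β u) :
    LabelledAt ρ' (ResidueField.map (algebraMap 𝒪 A')) P φ τ α β
      (Units.map ((f : A →+* A') : A →* A') u) :=
  labelledAt_map (f : A →+* A') hf e _ (residue_compat f hf) h

/-- `eq_map_of_labelledAt`, `𝒪`-algebra form. -/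
theorem eq_map_of_labelledAt_algHom (f : A →ₐ[𝒪] A') (hf : IsLocalHom (f : A →+* A'))
    {ρ : GaloisRepAdic A} {ρ' : GaloisRepAdic A'}
    (e : (ρ.baseChangeAlong (f : A →+* A') hf).IsEquiv ρ')
    {P : ValuationSubring Qb} {φ τ : GQ} {α β : ResidueField 𝒪} (hαβ : α ≠ β)
    {u : Aˣ} {u' : A'ˣ}
    (h : LabelledAt ρ (ResidueField.map (algebraMap 𝒪 A)) P φ τ α β u)
    (h' : LabelledAt ρ' (ResidueField.map (algebraMap 𝒪 A')) P φ τ α β u') :
    u' = Units.map ((f : A →+* A') : A →* A') u :=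
  eq_map_of_labelledAt (f : A →+* A') hf e _ (residue_compat f hf) hαβ h h'

/-- **`ψ_Q (g_j) = χ'₀(τ_j)` for EVERY diagonalisation of `ρ_Q` at `q_j`**, `𝒪`-algebra form:
`f = ψ_Q : R_Q → T_Q`, `ρ = DQ.ρ`, `ρ' = ρ_Q`, `u = g_j`. -/
theorem chars_eq_map_of_labelledAt_algHom (f : A →ₐ[𝒪] A') (hf : IsLocalHom (f : A →+* A'))
    {ρ : GaloisRepAdic A} {ρ' : GaloisRepAdic A'}
    (e : (ρ.baseChangeAlong (f : A →+* A') hf).IsEquiv ρ')
    {P : ValuationSubring Qb} {φ τ : GQ} {α β : ResidueField 𝒪} (hαβ : α ≠ β) {u : Aˣ}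
    (h : LabelledAt ρ (ResidueField.map (algebraMap 𝒪 A)) P φ τ α β u)
    (hφ : φ ∈ P.decompositionSubgroup ℚ) (hτ : τ ∈ P.decompositionSubgroup ℚ)
    (B' : Module.Basis (Fin 2) A' ρ'.V) (χ' : Fin 2 → P.decompositionSubgroup ℚ →* A'ˣ)
    (hχ' : ∀ (i : Fin 2) (σ : P.decompositionSubgroup ℚ),
      ρ'.ρ (σ : GQ) (B' i) = (χ' i σ : A') • B' i)
    (h0 : residue A' (χ' 0 ⟨φ, hφ⟩ : A') = ResidueField.map (algebraMap 𝒪 A') α)
    (h1 : residue A' (χ' 1 ⟨φ, hφ⟩ : A') = ResidueField.map (algebraMap 𝒪 A') β) :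
    ((χ' 0 ⟨τ, hτ⟩ : A'ˣ) : A') = f (u : A) := by
  have := chars_eq_map_of_labelledAt (f : A →+* A') hf e _ (residue_compat f hf) hαβ h hφ hτ
    B' χ' hχ' h0 h1
  rw [this]
  rfl

end Alg

end Fermat.Agent.GE2.LabelMap
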