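/-
GATE-E (S59, pre-work) / E2–E6 seam, node GE2-CLASSMAP (helper22).

**Classifying maps out of a universal deformation ring are determined by the Frobenius
characteristic polynomials.**

* `baseChange_artinian`, `baseChange_complete` : a deformation condition (frozen
  `IsDeformationCondition`) is stable under base change along ANY local `𝒪`-algebra map of complete
  noetherian local `𝒪`-algebras (not only the surjective ones of `GE2/AugQuot`);
* `algHom_eq_of_trace_eq` : two local `𝒪`-algebra maps `f₁ f₂ : R^univ → T` with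
  `tr (ρ^univ ⊗ f₁) = tr (ρ^univ ⊗ f₂)` are equal (Carayol + the uniqueness clause of `universal`);
* **`algHom_eq_of_charpoly_frob_eq`** : the same from the characteristic polynomials of the Frobenius
  elements outside a finite set of primes (Chebotarev);
* `comp_eq_comp_of_charpoly_frob` : **the seam** `φ_∅ ∘ π = θ ∘ φ_Q` for
  `π : R_Q → R_∅`, `φ_Q : R_Q → T_Q`, `φ_∅ : R_∅ → T_∅`, `θ : T_Q → T_∅`, when the Frobenius
  characteristic polynomials of `ρ_Q ⊗ φ_Q` and `ρ_∅ ⊗ φ_∅` are `X² − t_ℓ X + d_ℓ` with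
  `θ (tQ_ℓ) = t∅_ℓ`, `θ (dQ_ℓ) = d∅_ℓ` (Hecke operators): this is the `β`-semilinearity of
  `M_Q → M_∅` in the Taylor–Wiles level.
-/
import Mathlib
import Fermat.Agent.GE2.AugQuot
import Fermat.Agent.S53_helper35.Wrappers
import Fermat.Agent.GJ.Tate.Carayol

set_option autoImplicit false
set_option linter.unusedSectionVars false
set_option linter.style.haveILetI false

noncomputable section

namespace Fermat.Agent.GE2.ClassMap

open IsLocalRing Function Polynomial GaloisRep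
open Fermat.Agent.GP.Top Fermat.Agent.GP.Tan.UnivInj Fermat.Agent.S53_helper35

/-- `ℚ̄`. -/
local notation "Qb" => AlgebraicClosure ℚ
/-- `G_ℚ`. -/
local notation "GQ" => (AlgebraicClosure ℚ ≃ₐ[ℚ] AlgebraicClosure ℚ)

/-! ### base change of a deformation condition along arbitrary local maps -/

section BaseChange

variable {𝒪 : Type} [CommRing 𝒪] [IsLocalRing 𝒪]
  {𝒟 : ∀ ⦃A : Type⦄ [CommRing A] [IsLocalRing A] [Algebra 𝒪 A], GaloisRepAdic A → Prop}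

/-- the characteristic polynomial of a base change. -/
theorem charpoly_baseChangeAlong' {A B : Type} [CommRing A] [IsLocalRing A] [CommRing B]
    [IsLocalRing B] (φ : A →+* B) (hφ : IsLocalHom φ) (ρ : GaloisRepAdic A) (σ : GQ) :
    LinearMap.charpoly ((ρ.baseChangeAlong φ hφ).ρ σ) = (LinearMap.charpoly (ρ.ρ σ)).map φ := by
  letI : Algebra A B := φ.toAlgebra
  exact LinearMap.charpoly_baseChange (ρ.ρ σ) B

/-- the trace of a base change. -/
theorem trace_baseChangeAlong' {A B : Type} [CommRing A] [IsLocalRing A] [CommRing B]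
    [IsLocalRing B] (φ : A →+* B) (hφ : IsLocalHom φ) (ρ : GaloisRepAdic A) (σ : GQ) :
    (ρ.baseChangeAlong φ hφ).trace σ = φ (ρ.trace σ) := by
  letI : Algebra A B := φ.toAlgebra
  exact LinearMap.trace_baseChange (ρ.ρ σ) B

/-- the image of a complete noetherian local `𝒪`-algebra in an Artinian test algebra is an
Artinian test algebra. -/
theorem isArtinianTestAlgebra_quot_ker {A C : Type} [CommRing A] [IsLocalRing A]
    [IsNoetherianRing A] [Algebra 𝒪 A] [CommRing C] [IsLocalRing C] [Algebra 𝒪 C]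
    (hlocA : IsLocalHom (algebraMap 𝒪 A))
    (hresA : Surjective (IsLocalRing.residue A ∘ algebraMap 𝒪 A))
    (hC : IsArtinianTestAlgebra 𝒪 C) (g : A →ₐ[𝒪] C)
    [IsLocalRing (A ⧸ RingHom.ker g)] : IsArtinianTestAlgebra 𝒪 (A ⧸ RingHom.ker g) := by
  refine ⟨isLocalHom_algebraMap_quot hlocA _, residue_surjective_quot hresA _, ?_⟩
  haveI := hC.isArtinian
  rw [isArtinianRing_iff_isNilpotent_maximalIdeal]
  -- the maximal ideal of `C` is nilpotent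
  have hnil : IsNilpotent (maximalIdeal C) := by
    have h := IsArtinianRing.isNilpotent_jacobson_bot (R := C)
    rwa [IsLocalRing.jacobson_eq_maximalIdeal ⊥ bot_ne_top] at h
  obtain ⟨n, hn⟩ := hnil
  refine ⟨n, ?_⟩
  set ι := Ideal.kerLiftAlg g with hι
  have hιinj : Injective ι := Ideal.kerLiftAlg_injective g
  have hιloc : IsLocalHom (ι : A ⧸ RingHom.ker g →+* C) :=
    isLocalHom_of_residue_cover hC.residue_surjective ι
  have hle : maximalIdeal (A ⧸ RingHom.ker g) ≤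
      (maximalIdeal C).comap (ι : A ⧸ RingHom.ker g →+* C) := by
    intro x hx
    rw [Ideal.mem_comap]
    haveI := hιloc
    exact map_nonunit (ι : A ⧸ RingHom.ker g →+* C) x hx
  rw [Ideal.zero_eq_bot, eq_bot_iff]
  intro x hx
  have h1 : x ∈ ((maximalIdeal C) ^ n).comap (ι : A ⧸ RingHom.ker g →+* C) :=
    Ideal.le_comap_pow _ n (Ideal.pow_right_mono hle n hx)
  rw [Ideal.mem_comap, hn, Ideal.zero_eq_bot, Ideal.mem_bot] at h1
  rw [Ideal.mem_bot]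
  exact hιinj (by rw [map_zero]; exact h1)

variable {A : Type} [CommRing A] [IsLocalRing A] [IsNoetherianRing A]
  [IsAdicComplete (maximalIdeal A) A] [Algebra 𝒪 A]

/-- base change to an Artinian test algebra along an arbitrary local map. -/
theorem baseChange_artinian (h𝒟 : IsDeformationCondition 𝒪 𝒟)
    (hlocA : IsLocalHom (algebraMap 𝒪 A))
    (hresA : Surjective (IsLocalRing.residue A ∘ algebraMap 𝒪 A))
    {C : Type} [CommRing C] [IsLocalRing C] [Algebra 𝒪 C] (hC : IsArtinianTestAlgebra 𝒪 C)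
    (g : A →ₐ[𝒪] C) (hg : IsLocalHom (g : A →+* C)) (ρ : GaloisRepAdic A) (hρ : 𝒟 ρ) :
    𝒟 (ρ.baseChangeAlong (g : A →+* C) hg) := by
  have hI : RingHom.ker g ≠ ⊤ := RingHom.ker_ne_top _
  haveI : IsLocalRing (A ⧸ RingHom.ker g) :=
    Fermat.Agent.S53_helper15.isLocalRing_quotient _ hI
  have hA' := isArtinianTestAlgebra_quot_ker hlocA hresA hC g
  set κ : A →ₐ[𝒪] A ⧸ RingHom.ker g := Ideal.Quotient.mkₐ 𝒪 (RingHom.ker g) with hκdef
  set ι : A ⧸ RingHom.ker g →ₐ[𝒪] C := Ideal.kerLiftAlg g with hιdef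
  have hκs : Surjective κ := Ideal.Quotient.mkₐ_surjective 𝒪 _
  have hκ : IsLocalHom (κ : A →+* A ⧸ RingHom.ker g) :=
    isLocalHom_of_residue_cover hA'.residue_surjective κ
  have hι : IsLocalHom (ι : A ⧸ RingHom.ker g →+* C) :=
    isLocalHom_of_residue_cover hC.residue_surjective ι
  -- step 1: surjective base change
  have h1 : 𝒟 (ρ.baseChangeAlong (κ : A →+* A ⧸ RingHom.ker g) hκ) :=
    (h𝒟.iff_forall_surjective hlocA hresA ρ).mp hρ hA' κ hκ hκs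
  -- step 2: base change between Artinian test algebras
  have h2 := h𝒟.baseChangeAlong hA' hC ι hι h1
  -- step 3: compose
  obtain ⟨e1⟩ := baseChangeAlong_comp_isEquiv ρ (κ : A →+* A ⧸ RingHom.ker g) hκ
    (ι : A ⧸ RingHom.ker g →+* C) hι
  have hcomp : (ι : A ⧸ RingHom.ker g →+* C).comp (κ : A →+* A ⧸ RingHom.ker g) =
      (g : A →+* C) := by
    ext x
    rfl
  obtain ⟨e2⟩ := Fermat.Agent.GE2.AugQuot.baseChangeAlong_isEquiv_of_eq ρ
    (isLocalHom_comp' (κ : A →+* A ⧸ RingHom.ker g) hκ (ι : A ⧸ RingHom.ker g →+* C) hι) hg hcomp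
  exact h𝒟.of_isEquiv hC ⟨e1.trans e2⟩ h2

/-- **a deformation condition is stable under base change along ANY local `𝒪`-algebra map** of
complete noetherian local `𝒪`-algebras whose residue fields are covered by `𝒪`. -/
theorem baseChange_complete (h𝒟 : IsDeformationCondition 𝒪 𝒟)
    {B : Type} [CommRing B] [IsLocalRing B] [IsNoetherianRing B]
    [IsAdicComplete (maximalIdeal B) B] [Algebra 𝒪 B]
    (hlocA : IsLocalHom (algebraMap 𝒪 A))
    (hresA : Surjective (IsLocalRing.residue A ∘ algebraMap 𝒪 A))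
    (hlocB : IsLocalHom (algebraMap 𝒪 B))
    (hresB : Surjective (IsLocalRing.residue B ∘ algebraMap 𝒪 B))
    (f : A →ₐ[𝒪] B) (hf : IsLocalHom (f : A →+* B)) (ρ : GaloisRepAdic A) (hρ : 𝒟 ρ) :
    𝒟 (ρ.baseChangeAlong (f : A →+* B) hf) := by
  refine (h𝒟.iff_forall_surjective hlocB hresB _).mpr ?_
  intro C _ _ _ hC q hq _
  have hloc : IsLocalHom ((q.comp f : A →ₐ[𝒪] C) : A →+* C) :=
    isLocalHom_comp' (f : A →+* B) hf (q : B →+* C) hq
  have h1 := baseChange_artinian h𝒟 hlocA hresA hC (q.comp f) hloc ρ hρ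
  obtain ⟨e⟩ := baseChangeAlong_comp_isEquiv ρ (f : A →+* B) hf (q : B →+* C) hq
  exact h𝒟.of_isEquiv hC ⟨e.symm⟩ h1

end BaseChange

/-! ### classifying maps are determined by traces / Frobenius characteristic polynomials -/

section Classify

variable {𝒪 : Type} [CommRing 𝒪] [IsDomain 𝒪] [IsDiscreteValuationRing 𝒪]
  [IsAdicComplete (maximalIdeal 𝒪) 𝒪]
  {ρbar : ResidualGaloisRep (ResidueField 𝒪)}
  {𝒟 : ∀ ⦃A : Type⦄ [CommRing A] [IsLocalRing A] [Algebra 𝒪 A], GaloisRepAdic A → Prop}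
  (D : DeformationRingData 𝒪 ρbar 𝒟)
  {T : Type} [CommRing T] [IsLocalRing T] [IsNoetherianRing T]
  [IsAdicComplete (maximalIdeal T) T] [Algebra 𝒪 T]

/-- **classifying maps with the same trace function are equal.** -/
theorem algHom_eq_of_trace_eq (h𝒟 : IsDeformationCondition 𝒪 𝒟)
    (hlocT : IsLocalHom (algebraMap 𝒪 T))
    (hresT : Surjective (IsLocalRing.residue T ∘ algebraMap 𝒪 T))
    (f₁ f₂ : D.R →ₐ[𝒪] T) (htr : ∀ σ : GQ, f₁ (D.ρ.trace σ) = f₂ (D.ρ.trace σ)) : f₁ = f₂ := by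
  have hf₁ : IsLocalHom (f₁ : D.R →+* T) := isLocalHom_of_residue_cover hresT f₁
  have hf₂ : IsLocalHom (f₂ : D.R →+* T) := isLocalHom_of_residue_cover hresT f₂
  haveI := hlocT
  have h𝒟₂ : 𝒟 (D.ρ.baseChangeAlong (f₂ : D.R →+* T) hf₂) :=
    baseChange_complete h𝒟 D.instIsLocalHom D.residue_surjective hlocT hresT f₂ hf₂ D.ρ D.isOfType
  refine algHom_eq_of_isEquiv D hresT f₁ f₂ hf₁ hf₂ h𝒟₂ ?_
  refine isEquiv_of_trace_eq _ _ ρbar D.absIrr (ResidueField.map (algebraMap 𝒪 T))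
    (residual_baseChangeAlong_univ D f₁ hf₁) (residual_baseChangeAlong_univ D f₂ hf₂) ?_
  intro σ
  rw [trace_baseChangeAlong', trace_baseChangeAlong']
  exact htr σ

/-- **classifying maps with the same Frobenius characteristic polynomials** (outside a finite set
`B` of primes) **are equal.** -/
theorem algHom_eq_of_charpoly_frob_eq (h𝒟 : IsDeformationCondition 𝒪 𝒟)
    (hlocT : IsLocalHom (algebraMap 𝒪 T))
    (hresT : Surjective (IsLocalRing.residue T ∘ algebraMap 𝒪 T))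
    (f₁ f₂ : D.R →ₐ[𝒪] T) (B : Finset ℕ)
    (hfrob : ∀ ℓ : ℕ, ℓ.Prime → ℓ ∉ B → ∀ P : ValuationSubring Qb, P.LiesOverPrime ℓ →
      ∀ σ : GQ, P.IsFrobeniusAt σ ℓ →
        (LinearMap.charpoly (D.ρ.ρ σ)).map (f₁ : D.R →+* T) =
          (LinearMap.charpoly (D.ρ.ρ σ)).map (f₂ : D.R →+* T)) : f₁ = f₂ := by
  have hf₁ : IsLocalHom (f₁ : D.R →+* T) := isLocalHom_of_residue_cover hresT f₁
  have hf₂ : IsLocalHom (f₂ : D.R →+* T) := isLocalHom_of_residue_cover hresT f₂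
  refine algHom_eq_of_trace_eq D h𝒟 hlocT hresT f₁ f₂ fun σ => ?_
  have h := Fermat.Agent.GJ.Tate.Carayol.trace_eq_of_charpoly_frob_eq
    (D.ρ.baseChangeAlong (f₁ : D.R →+* T) hf₁) (D.ρ.baseChangeAlong (f₂ : D.R →+* T) hf₂) B
    (fun ℓ hℓ hℓB P hP τ hτ => by
      rw [charpoly_baseChangeAlong', charpoly_baseChangeAlong']
      exact hfrob ℓ hℓ hℓB P hP τ hτ) σ
  rwa [trace_baseChangeAlong', trace_baseChangeAlong'] at h

end Classify

/-! ### the seam `φ_∅ ∘ π = θ ∘ φ_Q` -/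

section Seam

variable {𝒪 : Type} [CommRing 𝒪] [IsDomain 𝒪] [IsDiscreteValuationRing 𝒪]
  [IsAdicComplete (maximalIdeal 𝒪) 𝒪]
  {ρbar : ResidualGaloisRep (ResidueField 𝒪)}
  {𝒟₀ 𝒟Q : ∀ ⦃A : Type⦄ [CommRing A] [IsLocalRing A] [Algebra 𝒪 A], GaloisRepAdic A → Prop}
  (D₀ : DeformationRingData 𝒪 ρbar 𝒟₀) (DQ : DeformationRingData 𝒪 ρbar 𝒟Q)
  {T₀ : Type} [CommRing T₀] [IsLocalRing T₀] [IsNoetherianRing T₀]
  [IsAdicComplete (maximalIdeal T₀) T₀] [Algebra 𝒪 T₀]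
  {TQ : Type} [CommRing TQ] [Algebra 𝒪 TQ]

/-- characteristic polynomials of equivalent representations. -/
theorem charpoly_eq_of_isEquiv' {A : Type} [CommRing A] [IsLocalRing A] {ρ₁ ρ₂ : GaloisRepAdic A}
    (h : ρ₁.IsEquiv ρ₂) (σ : GQ) :
    LinearMap.charpoly (ρ₁.ρ σ) = LinearMap.charpoly (ρ₂.ρ σ) := by
  obtain ⟨e⟩ := h
  have h2 : ρ₂.ρ σ = e.toLinearEquiv.conj (ρ₁.ρ σ) := by
    apply LinearMap.ext
    intro x
    rw [LinearEquiv.conj_apply_apply, e.map_apply, LinearEquiv.apply_symm_apply]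
  rw [h2, LinearEquiv.charpoly_conj]

/-- **the seam**: `φ_∅ ∘ π = θ ∘ φ_Q`, when the Frobenius characteristic polynomials on both sides
are given by elements `tQ ℓ, dQ ℓ ∈ T_Q` and `t₀ ℓ, d₀ ℓ ∈ T_∅` matched by `θ`. -/
theorem comp_eq_comp_of_charpoly_frob (h𝒟Q : IsDeformationCondition 𝒪 𝒟Q)
    (hlocT : IsLocalHom (algebraMap 𝒪 T₀))
    (hresT : Surjective (IsLocalRing.residue T₀ ∘ algebraMap 𝒪 T₀))
    (π : DQ.R →ₐ[𝒪] D₀.R) (hπ : IsLocalHom (π : DQ.R →+* D₀.R))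
    (hπρ : (DQ.ρ.baseChangeAlong (π : DQ.R →+* D₀.R) hπ).IsEquiv D₀.ρ)
    (φ₀ : D₀.R →ₐ[𝒪] T₀) (φQ : DQ.R →ₐ[𝒪] TQ) (θ : TQ →ₐ[𝒪] T₀) (B : Finset ℕ)
    (tQ dQ : ℕ → TQ) (t₀ d₀ : ℕ → T₀)
    (hθt : ∀ ℓ : ℕ, ℓ.Prime → ℓ ∉ B → θ (tQ ℓ) = t₀ ℓ)
    (hθd : ∀ ℓ : ℕ, ℓ.Prime → ℓ ∉ B → θ (dQ ℓ) = d₀ ℓ)
    (hQ : ∀ ℓ : ℕ, ℓ.Prime → ℓ ∉ B → ∀ P : ValuationSubring Qb, P.LiesOverPrime ℓ →
      ∀ σ : GQ, P.IsFrobeniusAt σ ℓ →
        (LinearMap.charpoly (DQ.ρ.ρ σ)).map (φQ : DQ.R →+* TQ) =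
          X ^ 2 - C (tQ ℓ) * X + C (dQ ℓ))
    (h₀ : ∀ ℓ : ℕ, ℓ.Prime → ℓ ∉ B → ∀ P : ValuationSubring Qb, P.LiesOverPrime ℓ →
      ∀ σ : GQ, P.IsFrobeniusAt σ ℓ →
        (LinearMap.charpoly (D₀.ρ.ρ σ)).map (φ₀ : D₀.R →+* T₀) =
          X ^ 2 - C (t₀ ℓ) * X + C (d₀ ℓ)) :
    φ₀.comp π = θ.comp φQ := by
  refine algHom_eq_of_charpoly_frob_eq DQ h𝒟Q hlocT hresT (φ₀.comp π) (θ.comp φQ) B ?_
  intro ℓ hℓ hℓB P hP σ hσ
  -- left: through `π`
  have hL : (LinearMap.charpoly (DQ.ρ.ρ σ)).map ((φ₀.comp π : DQ.R →ₐ[𝒪] T₀) : DQ.R →+* T₀) =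
      X ^ 2 - C (t₀ ℓ) * X + C (d₀ ℓ) := by
    have e1 : ((φ₀.comp π : DQ.R →ₐ[𝒪] T₀) : DQ.R →+* T₀) =
        (φ₀ : D₀.R →+* T₀).comp (π : DQ.R →+* D₀.R) := rfl
    rw [e1, ← Polynomial.map_map, ← charpoly_baseChangeAlong' (π : DQ.R →+* D₀.R) hπ DQ.ρ σ,
      charpoly_eq_of_isEquiv' hπρ σ]
    exact h₀ ℓ hℓ hℓB P hP σ hσ
  -- right: through `θ`
  have hR : (LinearMap.charpoly (DQ.ρ.ρ σ)).map ((θ.comp φQ : DQ.R →ₐ[𝒪] T₀) : DQ.R →+* T₀) =
      X ^ 2 - C (t₀ ℓ) * X + C (d₀ ℓ) := by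
    have e1 : ((θ.comp φQ : DQ.R →ₐ[𝒪] T₀) : DQ.R →+* T₀) =
        (θ : TQ →+* T₀).comp (φQ : DQ.R →+* TQ) := rfl
    rw [e1, ← Polynomial.map_map, hQ ℓ hℓ hℓB P hP σ hσ, Polynomial.map_add, Polynomial.map_sub,
      Polynomial.map_mul, Polynomial.map_pow, Polynomial.map_X, Polynomial.map_C,
      Polynomial.map_C]
    show X ^ 2 - C (θ (tQ ℓ)) * X + C (θ (dQ ℓ)) = _
    rw [hθt ℓ hℓ hℓB, hθd ℓ hℓ hℓB]
  rw [hL, hR]

end Seam

end Fermat.Agent.GE2.ClassMap
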